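import Fermat.Agent.S52A.Good

/-!
# The universal curve with full level 5 structure: `Par`, `PP`, `QQ`, `indep`, `PP_pow`, `inj`, `cov`
-/
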