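import Fermat.Agent.S52A.Tors

/-!
# The icosahedral vector is determined by the two points
-/

set_option autoImplicit false

namespace Fermat.Agent.S52A

open Fermat.Agent.S52L

variable {K : Type*} [Field K] [CharZero K]

/-- the pair `(E, F)` is determined by the point and the curve -/
theorem EF_inj {E F E' F' : K} (hX : Xf E' F' = Xf E F) (hY : Yf E' F' = Yf E F)
    (hA : Af E' F' = Af E F) (h0 : Yf E F ≠ 0) : E' = E ∧ F' = F := by
  have h1 : 2 * E' - F' = 2 * E - F := by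
    have h2 := tang E' F'
    rw [hX, hY, hA, ← tang E F] at h2
    exact mul_left_cancel₀ (mul_ne_zero two_ne_zero h0) h2
  have hX2 : Xf F' (-E') = Xf F (-E) := by
    rw [← dbl_x, ← dbl_x, h1, hX]
  have hY2 : Yf F' (-E') = Yf F (-E) := by
    rw [← dbl_y, ← dbl_y, h1, hX2, hX, hY]
  have hA2 : Af F' (-E') = Af F (-E) := by rw [Af_rot, Af_rot, hA]
  have h3 : Yf F (-E) ≠ 0 := by
    rw [Yf, div_ne_zero_iff, mul_ne_zero_iff, pow_ne_zero_iff two_ne_zero] at h0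
    rw [Yf, div_ne_zero_iff, mul_ne_zero_iff, pow_ne_zero_iff two_ne_zero]
    obtain ⟨⟨h4, h5⟩, h6⟩ := h0
    refine ⟨⟨?_, ?_⟩, h6⟩
    · intro h
      exact h5 (by linear_combination h)
    · intro h
      exact h4 (by linear_combination -h)
  have h4 : 2 * F' - -E' = 2 * F - -E := by
    have h2 := tang F' (-E')
    rw [hX2, hY2, hA2, ← tang F (-E)] at h2
    exact mul_left_cancel₀ (mul_ne_zero two_ne_zero h3) h2
  have h5 : (5 : K) ≠ 0 := by norm_num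
  constructor
  · apply mul_left_cancel₀ h5
    linear_combination 2 * h1 + h4
  · apply mul_left_cancel₀ h5
    linear_combination 2 * h4 - h1

theorem sz_norm {z : K} (hz : z ^ 4 + z ^ 3 + z ^ 2 + z + 1 = 0) : sz z ^ 2 + sz2 z ^ 2 = -18 := by
  simp only [sz, sz2]
  linear_combination (108 / 5 - 36 / 5 * z + 36 / 5 * z ^ 2) * hz

theorem EP_inj {z a b a' b' : K} (hz : z ^ 4 + z ^ 3 + z ^ 2 + z + 1 = 0)
    (h1 : EP z a' b' = EP z a b) (h2 : FP z a' b' = FP z a b) : a' ^ 5 = a ^ 5 ∧ b' ^ 5 = b ^ 5 := by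
  have h18 : (-18 : K) ≠ 0 := by norm_num
  rw [EP, EP] at h1
  rw [FP, FP] at h2
  constructor
  · apply mul_left_cancel₀ h18
    rw [← sz_norm hz]
    linear_combination sz z * h1 + sz2 z * h2
  · apply mul_left_cancel₀ h18
    rw [← sz_norm hz]
    linear_combination sz z * h2 - sz2 z * h1

theorem ab_inj {a b a' b' : K} (hD : DD a b ≠ 0) (hDD : DD a' b' = DD a b) (h5a : a' ^ 5 = a ^ 5)
    (h5b : b' ^ 5 = b ^ 5) (hE : EQ a' b' = EQ a b) (hF : FQ a' b' = FQ a b) :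
    a' = a ∧ b' = b := by
  have ha : a ≠ 0 := fun h => hD (by rw [h, DD]; ring)
  have hb : b ≠ 0 := fun h => hD (by rw [h, DD]; ring)
  have hab : a' * b' = a * b := by
    have h1 : (a ^ 10 - 11 * a ^ 5 * b ^ 5 - b ^ 10) ≠ 0 := fun h => hD (by rw [DD, h, mul_zero])
    apply mul_right_cancel₀ h1
    rw [DD, DD] at hDD
    have e1 : a' ^ 10 = a ^ 10 := by
      have : a' ^ 10 = (a' ^ 5) ^ 2 := by ring
      rw [this, h5a]; ring
    have e2 : b' ^ 10 = b ^ 10 := by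
      have : b' ^ 10 = (b' ^ 5) ^ 2 := by ring
      rw [this, h5b]; ring
    have e3 : a' * b' * (a' ^ 10 - 11 * a' ^ 5 * b' ^ 5 - b' ^ 10) =
      a' * b' * (a ^ 10 - 11 * a ^ 5 * b ^ 5 - b ^ 10) := by rw [e1, e2, h5a, h5b]
    rw [← e3, hDD]
  have ha' : a' ≠ 0 := fun h => mul_ne_zero ha hb (by rw [← hab, h, zero_mul])
  have hb' : b' ≠ 0 := fun h => mul_ne_zero ha hb (by rw [← hab, h, mul_zero])
  obtain ⟨u, hu⟩ : ∃ u, a' = u * a := ⟨a' / a, (div_mul_cancel₀ a' ha).symm⟩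
  have hub : b = u * b' := by
    apply mul_left_cancel₀ ha
    rw [← hab, hu]; ring
  subst hu
  rw [hub] at hE hF h5b
  have hu5 : u ^ 5 = 1 := by
    apply mul_right_cancel₀ (pow_ne_zero 5 ha)
    rw [← mul_pow, h5a, one_mul]
  have hu0 : u ≠ 0 := fun h => by rw [h] at hu5; norm_num at hu5
  rw [EQ, EQ, div_left_inj' (by norm_num : (5 : K) ≠ 0)] at hE
  rw [FQ, FQ, div_left_inj' (by norm_num : (5 : K) ≠ 0)] at hF
  by_cases hu1 : u = 1
  · subst hu1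
    exact ⟨one_mul a, by rw [hub, one_mul]⟩
  exfalso
  have hu1' : u - 1 ≠ 0 := sub_ne_zero.2 hu1
  have h30 : (30 : K) ≠ 0 := by norm_num
  have A1 : (u ^ 2 + u + 1) * a ^ 2 + u * a * b' - u * b' ^ 2 = 0 := by
    have h : 30 * (u - 1) * (u * a * a * b') * ((u ^ 2 + u + 1) * a ^ 2 + u * a * b' - u * b' ^ 2) = 0 := by
      linear_combination hE - (9 * a ^ 5 + 3 * (-b' ^ 5)) * hu5
    exact (mul_eq_zero.1 h).resolve_left (mul_ne_zero (mul_ne_zero h30 hu1')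
      (mul_ne_zero (mul_ne_zero (mul_ne_zero hu0 ha) ha) hb'))
  have A2 : u * a ^ 2 + u * a * b' - (u ^ 2 + u + 1) * b' ^ 2 = 0 := by
    have h : 30 * (u - 1) * (u * a * b' * b') * (u * a ^ 2 + u * a * b' - (u ^ 2 + u + 1) * b' ^ 2) = 0 := by
      linear_combination hF - (3 * a ^ 5 - 9 * (-b' ^ 5)) * hu5
    exact (mul_eq_zero.1 h).resolve_left (mul_ne_zero (mul_ne_zero h30 hu1')
      (mul_ne_zero (mul_ne_zero (mul_ne_zero hu0 ha) hb') hb'))
  have h2 : u ^ 2 + 1 ≠ 0 := by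
    intro h
    apply hu1
    linear_combination hu5 - (u ^ 3 - u) * h
  have h3 : a ^ 2 + b' ^ 2 = 0 := by
    refine (mul_eq_zero.1 (?_ : (u ^ 2 + 1) * (a ^ 2 + b' ^ 2) = 0)).resolve_left h2
    linear_combination A1 - A2
  have h4 : (u ^ 2 + 2 * u + 1) * a + u * b' = 0 := by
    refine (mul_eq_zero.1 (?_ : a * ((u ^ 2 + 2 * u + 1) * a + u * b') = 0)).resolve_left ha
    linear_combination A1 + u * h3
  have h5 : (u + 1) ^ 4 + u ^ 2 = 0 := by
    refine (mul_eq_zero.1 (?_ : a ^ 2 * ((u + 1) ^ 4 + u ^ 2) = 0)).resolve_left (pow_ne_zero 2 ha)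
    linear_combination ((u ^ 2 + 2 * u + 1) * a - u * b') * h4 + u ^ 2 * h3
  have h6 : u ^ 4 + u ^ 3 + u ^ 2 + u + 1 = 0 := by
    refine (mul_eq_zero.1 (?_ : (u - 1) * (u ^ 4 + u ^ 3 + u ^ 2 + u + 1) = 0)).resolve_left hu1'
    linear_combination hu5
  have h7 : u + 1 = 0 := by
    have h8 : (3 * u) * (u + 1) ^ 2 = 0 := by linear_combination h5 - h6
    exact (pow_eq_zero_iff two_ne_zero).1 ((mul_eq_zero.1 h8).resolve_left
      (mul_ne_zero three_ne_zero hu0))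
  have h9 : u = -1 := by linear_combination h7
  rw [h9] at hu5
  norm_num at hu5

/-- **injectivity**, in coordinates -/
theorem inj_aux {z a b a' b' : K} (hz : z ^ 4 + z ^ 3 + z ^ 2 + z + 1 = 0) (hD : DD a b ≠ 0)
    (hDD : DD a' b' = DD a b) (hA : C4 a' b' = C4 a b)
    (h1 : Xf (EP z a' b') (FP z a' b') = Xf (EP z a b) (FP z a b))
    (h2 : Yf (EP z a' b') (FP z a' b') = Yf (EP z a b) (FP z a b))
    (h3 : Xf (EQ a' b') (FQ a' b') = Xf (EQ a b) (FQ a b))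
    (h4 : Yf (EQ a' b') (FQ a' b') = Yf (EQ a b) (FQ a b)) : a' = a ∧ b' = b := by
  obtain ⟨e1, e2⟩ := EF_inj h1 h2 (by rw [Af_P hz, Af_P hz, hA]) (Yf_P_ne hz hD)
  obtain ⟨e3, e4⟩ := EF_inj h3 h4 (by rw [Af_Q, Af_Q, hA]) (Yf_Q_ne hD)
  obtain ⟨e5, e6⟩ := EP_inj hz e1 e2
  exact ab_inj hD hDD e5 e6 e3 e4

end Fermat.Agent.S52A
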