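import Fermat.Agent.S52A.Pts
import Fermat.Agent.S52A.Inj

/-!
# The binary icosahedral group acts on the universal curve through `SL₂(𝔽₅)`
-/

set_option autoImplicit false
set_option linter.unusedSectionVars false

noncomputable section

namespace Fermat.Agent.S52A

open Fermat.Agent.S52L WeierstrassCurve

section deriv

open Polynomial

variable {K : Type*} [Field K]

theorem derivative_DD (x y : K[X]) :
    derivative (DD x y) = derivative x * Da x y + derivative y * Db x y := by
  simp only [DD, Da, Db, derivative_mul, derivative_sub, derivative_pow, derivative_ofNat,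
    Nat.cast_ofNat, map_ofNat]
  ring

variable [CharZero K]

theorem grad_aux {p r e f c d : K} (a b : K)
    (H : ∀ t : K, DD (p * t + e) (r * t + f) = DD (c * t + a) (d * t + b)) :
    p * Da e f + r * Db e f = c * Da a b + d * Db a b := by
  have h1 : DD (C p * X + C e) (C r * X + C f) = DD (C c * X + C a) (C d * X + C b) := by
    refine Polynomial.funext fun t => ?_
    have h2 := map_DD (evalRingHom t) (C p * X + C e) (C r * X + C f)
    have h3 := map_DD (evalRingHom t) (C c * X + C a) (C d * X + C b)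
    simp only [coe_evalRingHom, eval_add, eval_mul, eval_C, eval_X] at h2 h3
    rw [h2, h3, H]
  have h2 := congrArg derivative h1
  rw [derivative_DD, derivative_DD] at h2
  have h3 := congrArg (evalRingHom (0 : K)) h2
  simp only [map_add, map_mul, map_Da, map_Db] at h3
  simpa using h3

end deriv

variable {K : Type*} [Field K] [CharZero K] [DecidableEq K] {z : K} {A B a b a' b' : K}

/-- the linear map `(a, b) ↦ (p a + q b, r a + s b)` acts through `g` -/
structure Good (hz : z ^ 4 + z ^ 3 + z ^ 2 + z + 1 = 0) (p q r s : K)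
    (g : Matrix (Fin 2) (Fin 2) (ZMod 5)) : Prop where
  det : p * s - q * r = 1
  D : ∀ a b : K, DD (p * a + q * b) (r * a + s * b) = DD a b
  C4 : ∀ a b : K, C4 (p * a + q * b) (r * a + s * b) = C4 a b
  C6 : ∀ a b : K, C6 (p * a + q * b) (r * a + s * b) = C6 a b
  P : ∀ {A B a b a' b' : K} (h : Par A B a b) (h' : Par A B a' b') (_ : a' = p * a + q * b)
    (_ : b' = r * a + s * b), PP hz h' = (g 0 0).val • PP hz h + (g 1 0).val • QQ h
  Q : ∀ {A B a b a' b' : K} (h : Par A B a b) (h' : Par A B a' b') (_ : a' = p * a + q * b)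
    (_ : b' = r * a + s * b), QQ h' = (g 0 1).val • PP hz h + (g 1 1).val • QQ h

section grad

variable {hz : z ^ 4 + z ^ 3 + z ^ 2 + z + 1 = 0} {p q r s : K}
  {g : Matrix (Fin 2) (Fin 2) (ZMod 5)}

theorem Good.grad (G : Good hz p q r s g) (a b : K) :
    -Db (p * a + q * b) (r * a + s * b) = p * (-Db a b) + q * Da a b ∧
      Da (p * a + q * b) (r * a + s * b) = r * (-Db a b) + s * Da a b := by
  have h1 : p * Da (p * a + q * b) (r * a + s * b) + r * Db (p * a + q * b) (r * a + s * b) =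
      1 * Da a b + 0 * Db a b := by
    refine grad_aux a b fun t => ?_
    rw [← G.D (_ * t + a) (_ * t + b)]
    congr 1 <;> ring
  have h2 : q * Da (p * a + q * b) (r * a + s * b) + s * Db (p * a + q * b) (r * a + s * b) =
      0 * Da a b + 1 * Db a b := by
    refine grad_aux a b fun t => ?_
    rw [← G.D (_ * t + a) (_ * t + b)]
    congr 1 <;> ring
  have hd := G.det
  constructor
  · linear_combination q * h1 - p * h2 + Db (p * a + q * b) (r * a + s * b) * hd
  · linear_combination s * h1 - r * h2 - Da (p * a + q * b) (r * a + s * b) * hd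

theorem Good.par (G : Good hz p q r s g) (h : Par A B a b) :
    Par A B (p * a + q * b) (r * a + s * b) :=
  ⟨by rw [G.D]; exact h.hD, by rw [G.C4]; exact h.hA, by rw [G.C6]; exact h.hB⟩

end grad

theorem val_one5 : ZMod.val (1 : ZMod 5) = 1 := rfl

theorem val_add_smul {G : Type*} [AddCommGroup G] {P : G} (h : 5 • P = 0) (a b : ZMod 5) :
    (a + b).val • P = a.val • P + b.val • P := by
  rw [ZMod.val_add, ← nsmul_mod5 h, add_nsmul]

theorem val_mul_smul {G : Type*} [AddCommGroup G] {P : G} (h : 5 • P = 0) (a b : ZMod 5) :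
    (a * b).val • P = b.val • a.val • P := by
  rw [ZMod.val_mul, ← nsmul_mod5 h, mul_nsmul]

theorem Good.mul {hz : z ^ 4 + z ^ 3 + z ^ 2 + z + 1 = 0} {p q r s p' q' r' s' : K}
    {g g' : Matrix (Fin 2) (Fin 2) (ZMod 5)} (G : Good hz p q r s g)
    (G' : Good hz p' q' r' s' g') :
    Good hz (p * p' + q * r') (p * q' + q * s') (r * p' + s * r') (r * q' + s * s') (g' * g) := by
  have e1 : ∀ a b : K, (p * p' + q * r') * a + (p * q' + q * s') * b =
      p * (p' * a + q' * b) + q * (r' * a + s' * b) := fun a b => by ring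
  have e2 : ∀ a b : K, (r * p' + s * r') * a + (r * q' + s * s') * b =
      r * (p' * a + q' * b) + s * (r' * a + s' * b) := fun a b => by ring
  refine ⟨?_, ?_, ?_, ?_, ?_, ?_⟩
  · have h1 := G.det
    have h2 := G'.det
    linear_combination (p' * s' - q' * r') * h1 + h2
  · intro a b
    rw [e1, e2, G.D, G'.D]
  · intro a b
    rw [e1, e2, G.C4, G'.C4]
  · intro a b
    rw [e1, e2, G.C6, G'.C6]
  · intro A B a b a' b' h h' ha hb
    rw [e1] at ha
    rw [e2] at hb
    rw [G.P (G'.par h) h' ha hb, G'.P h (G'.par h) rfl rfl, G'.Q h (G'.par h) rfl rfl,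
      Matrix.mul_apply, Matrix.mul_apply, Fin.sum_univ_two, Fin.sum_univ_two,
      val_add_smul (five_PP hz h), val_add_smul (five_QQ h), val_mul_smul (five_PP hz h),
      val_mul_smul (five_PP hz h), val_mul_smul (five_QQ h), val_mul_smul (five_QQ h),
      nsmul_add, nsmul_add]
    abel
  · intro A B a b a' b' h h' ha hb
    rw [e1] at ha
    rw [e2] at hb
    rw [G.Q (G'.par h) h' ha hb, G'.P h (G'.par h) rfl rfl, G'.Q h (G'.par h) rfl rfl,
      Matrix.mul_apply, Matrix.mul_apply, Fin.sum_univ_two, Fin.sum_univ_two,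
      val_add_smul (five_PP hz h), val_add_smul (five_QQ h), val_mul_smul (five_PP hz h),
      val_mul_smul (five_PP hz h), val_mul_smul (five_QQ h), val_mul_smul (five_QQ h),
      nsmul_add, nsmul_add]
    abel

theorem good_T (hz : z ^ 4 + z ^ 3 + z ^ 2 + z + 1 = 0) :
    Good hz (z ^ 3) 0 0 (z ^ 2) !![1, 1; 0, 1] := by
  have h5 := pow5 hz
  refine ⟨?_, ?_, ?_, ?_, ?_, ?_⟩
  · linear_combination h5
  · intro a b
    rw [zero_mul, zero_mul, add_zero, zero_add, DD_T hz]
  · intro a b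
    rw [zero_mul, zero_mul, add_zero, zero_add, C4_T hz]
  · intro a b
    rw [zero_mul, zero_mul, add_zero, zero_add, C6_T hz]
  · intro A B a b a' b' h h' ha hb
    rw [zero_mul, add_zero] at ha
    rw [zero_mul, zero_add] at hb
    subst ha hb
    rw [PP_T hz h h']
    simp [val_one5]
  · intro A B a b a' b' h h' ha hb
    rw [zero_mul, add_zero] at ha
    rw [zero_mul, zero_add] at hb
    subst ha hb
    rw [QQ_T hz h h']
    simp [val_one5]

theorem good_S (hz : z ^ 4 + z ^ 3 + z ^ 2 + z + 1 = 0) :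
    Good hz (al z) (be z) (be z) (-al z) !![0, -1; 1, 0] := by
  have e1 : ∀ a b : K, al z * a + be z * b = Sa z a b := fun a b => rfl
  have e2 : ∀ a b : K, be z * a + -al z * b = Sb z a b := fun a b => by rw [Sb]; ring
  refine ⟨?_, ?_, ?_, ?_, ?_, ?_⟩
  · linear_combination -al_be hz
  · intro a b
    rw [e1, e2, DD_S hz]
  · intro a b
    rw [e1, e2, C4_S hz]
  · intro a b
    rw [e1, e2, C6_S hz]
  · intro A B a b a' b' h h' ha hb
    rw [e1] at ha
    rw [e2] at hb
    subst ha hb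
    rw [PP_S hz h h']
    simp [val_one5]
  · intro A B a b a' b' h h' ha hb
    rw [e1] at ha
    rw [e2] at hb
    subst ha hb
    rw [QQ_S hz h h']
    have h4 : (-1 : ZMod 5).val = 4 := rfl
    simp only [Matrix.cons_val_zero, Matrix.cons_val_one, Matrix.of_apply, Matrix.cons_val',
      h4, ZMod.val_zero, zero_nsmul, add_zero, Matrix.cons_val_fin_one]
    have := five_PP hz h
    rw [show (5 : ℕ) = 4 + 1 from rfl, add_nsmul, one_nsmul] at this
    exact (eq_neg_of_add_eq_zero_left this).symm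

/-- `g` comes from the binary icosahedral group -/
def IsGood (hz : z ^ 4 + z ^ 3 + z ^ 2 + z + 1 = 0) (g : Matrix (Fin 2) (Fin 2) (ZMod 5)) : Prop :=
  ∃ p q r s : K, Good hz p q r s g

section closure

variable (hz : z ^ 4 + z ^ 3 + z ^ 2 + z + 1 = 0)

theorem IsGood.mul {g g' : Matrix (Fin 2) (Fin 2) (ZMod 5)} (h : IsGood hz g)
    (h' : IsGood hz g') : IsGood hz (g * g') := by
  obtain ⟨p, q, r, s, G⟩ := h
  obtain ⟨p', q', r', s', G'⟩ := h'
  exact ⟨_, _, _, _, G'.mul G⟩

theorem isGood_U (n : ℕ) : IsGood hz !![1, (n : ZMod 5) + 1; 0, 1] := by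
  induction n with
  | zero =>
    rw [Nat.cast_zero, zero_add]
    exact ⟨_, _, _, _, good_T hz⟩
  | succ n ih =>
    have h := ih.mul hz ⟨_, _, _, _, good_T hz⟩
    rw [Matrix.mul_fin_two] at h
    convert h using 2
    push_cast
    ring_nf

theorem isGood_U' (x : ZMod 5) : IsGood hz !![1, x; 0, 1] := by
  have h := isGood_U hz (x - 1).val
  rw [ZMod.natCast_val, ZMod.cast_id, sub_add_cancel] at h
  exact h

theorem isGood_S : IsGood hz !![0, -1; 1, 0] := ⟨_, _, _, _, good_S hz⟩

theorem isGood_S3 : IsGood hz !![0, 1; -1, 0] := by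
  have h := ((isGood_S hz).mul hz (isGood_S hz)).mul hz (isGood_S hz)
  rw [Matrix.mul_fin_two, Matrix.mul_fin_two] at h
  simpa using h

theorem isGood_L (c : ZMod 5) : IsGood hz !![1, 0; c, 1] := by
  have h := ((isGood_S hz).mul hz (isGood_U' hz (-c))).mul hz (isGood_S3 hz)
  rw [Matrix.mul_fin_two, Matrix.mul_fin_two] at h
  simpa using h

theorem isGood_of_ne {a b c d : ZMod 5} (h : a * d - b * c = 1) (hc : c ≠ 0) :
    IsGood hz !![a, b; c, d] := by
  have h1 := ((isGood_U' hz ((a - 1) * c⁻¹)).mul hz (isGood_L hz c)).mul hz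
    (isGood_U' hz (c⁻¹ * (d - 1)))
  rw [Matrix.mul_fin_two, Matrix.mul_fin_two] at h1
  have : Fact (Nat.Prime 5) := ⟨by norm_num⟩
  have hcc : c⁻¹ * c = 1 := inv_mul_cancel₀ hc
  have e1 : (1 * 1 + (a - 1) * c⁻¹ * c) * 1 + (1 * 0 + (a - 1) * c⁻¹ * 1) * 0 = a := by
    linear_combination (a - 1) * hcc
  have e2 : (1 * 1 + (a - 1) * c⁻¹ * c) * (c⁻¹ * (d - 1)) + (1 * 0 + (a - 1) * c⁻¹ * 1) * 1 =
      b := by
    linear_combination ((a - 1) * c⁻¹ * (d - 1) + b) * hcc + c⁻¹ * h
  have e3 : (0 * 1 + 1 * c) * 1 + (0 * 0 + 1 * 1) * 0 = c := by ring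
  have e4 : (0 * 1 + 1 * c) * (c⁻¹ * (d - 1)) + (0 * 0 + 1 * 1) * 1 = d := by
    linear_combination (d - 1) * hcc
  rw [e1, e2, e3, e4] at h1
  exact h1

theorem isGood (g : Matrix (Fin 2) (Fin 2) (ZMod 5)) (hg : g.det = 1) : IsGood hz g := by
  rw [Matrix.det_fin_two] at hg
  rw [Matrix.eta_fin_two g]
  by_cases hc : g 1 0 = 0
  · have h1 : IsGood hz !![-g 1 0, -g 1 1; g 0 0, g 0 1] := by
      refine isGood_of_ne hz ?_ ?_
      · linear_combination hg
      · intro h0
        rw [hc, h0] at hg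
        simp only [zero_mul, mul_zero, sub_zero] at hg
        exact absurd hg (by decide)
    have h2 := (isGood_S3 hz).mul hz h1
    rw [Matrix.mul_fin_two] at h2
    simpa using h2
  · exact isGood_of_ne hz (by linear_combination hg) hc

end closure

theorem inj (hz : z ^ 4 + z ^ 3 + z ^ 2 + z + 1 = 0) (h : Par A B a b) (h' : Par A B a' b')
    (hDD : DD a' b' = DD a b) (h1 : PP hz h' = PP hz h) (h2 : QQ h' = QQ h) :
    a' = a ∧ b' = b := by
  rw [PP, PP, Affine.Point.some.injEq] at h1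
  rw [QQ, QQ, Affine.Point.some.injEq] at h2
  have hA : C4 a' b' = C4 a b :=
    mul_left_cancel₀ (by norm_num : (-27 : K) ≠ 0) (h'.hA.symm.trans h.hA)
  exact inj_aux hz h.hD hDD hA h1.1 h1.2 h2.1 h2.2

/-- covariance; the vector of parameter `(x, y)` is `(va a b x y, vb a b x y)` -/
theorem cov (hz : z ^ 4 + z ^ 3 + z ^ 2 + z + 1 = 0) (h : Par A B a b) (h' : Par A B a' b')
    (hDD : DD a' b' = DD a b) (g : Matrix (Fin 2) (Fin 2) (ZMod 5)) (hg : g.det = 1)
    (h1 : PP hz h' = (g 0 0).val • PP hz h + (g 1 0).val • QQ h)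
    (h2 : QQ h' = (g 0 1).val • PP hz h + (g 1 1).val • QQ h) (x y : K) :
    C4 (va a' b' x y) (vb a' b' x y) = C4 (va a b x y) (vb a b x y) ∧
    C6 (va a' b' x y) (vb a' b' x y) = C6 (va a b x y) (vb a b x y) ∧
    DD (va a' b' x y) (vb a' b' x y) = DD (va a b x y) (vb a b x y) ∧
    ∀ {A₁ B₁ : K} (k : Par A₁ B₁ (va a b x y) (vb a b x y))
      (k' : Par A₁ B₁ (va a' b' x y) (vb a' b' x y)),
      PP hz k' = (g 0 0).val • PP hz k + (g 1 0).val • QQ k ∧
      QQ k' = (g 0 1).val • PP hz k + (g 1 1).val • QQ k := by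
  obtain ⟨p, q, r, s, G⟩ := isGood hz g hg
  obtain ⟨ha, hb⟩ := inj hz (G.par h) h' (hDD.trans (G.D a b).symm)
    (h1.trans (G.P h (G.par h) rfl rfl).symm) (h2.trans (G.Q h (G.par h) rfl rfl).symm)
  obtain ⟨g1, g2⟩ := G.grad a b
  have e1 : va a' b' x y = p * va a b x y + q * vb a b x y := by
    rw [ha, hb, va, va, vb]
    linear_combination y * g1
  have e2 : vb a' b' x y = r * va a b x y + s * vb a b x y := by
    rw [ha, hb, vb, va, vb]
    linear_combination y * g2
  refine ⟨?_, ?_, ?_, fun k k' => ⟨G.P k k' e1 e2, G.Q k k' e1 e2⟩⟩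
  · rw [e1, e2, G.C4]
  · rw [e1, e2, G.C6]
  · rw [e1, e2, G.D]

end Fermat.Agent.S52A
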