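import Fermat.Agent.S52A.Tors

/-!
# The points of order 5 on the universal curve
-/

set_option autoImplicit false

noncomputable section

namespace Fermat.Agent.S52A

open Fermat.Agent.S52L WeierstrassCurve

variable {K : Type*} [Field K]

/-- the curve `y² = x³ + A x + B` -/
def EC (A B : K) : WeierstrassCurve K := ⟨0, 0, 0, A, B⟩

/-- `(a, b)` is an icosahedral vector of the curve `EC A B` -/
structure Par (A B a b : K) : Prop where
  hD : DD a b ≠ 0
  hA : A = -27 * C4 a b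
  hB : B = -54 * C6 a b

/-- abscissa of `P` -/
def xP (z a b : K) : K := Xf (EP z a b) (FP z a b)

/-- ordinate of `P` -/
def yP (z a b : K) : K := Yf (EP z a b) (FP z a b)

/-- abscissa of `Q` -/
def xQ (a b : K) : K := Xf (EQ a b) (FQ a b)

/-- ordinate of `Q` -/
def yQ (a b : K) : K := Yf (EQ a b) (FQ a b)

section map

variable {L : Type*} [Field L] (f : K →+* L)

theorem map_xP (z a b : K) : f (xP z a b) = xP (f z) (f a) (f b) := by
  simp [xP, Xf, EP, FP, sz, sz2, map_ofNat]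

theorem map_yP (z a b : K) : f (yP z a b) = yP (f z) (f a) (f b) := by
  simp [yP, Yf, EP, FP, sz, sz2, map_ofNat]

theorem map_xQ (a b : K) : f (xQ a b) = xQ (f a) (f b) := by
  simp [xQ, Xf, EQ, FQ, map_ofNat]

theorem map_yQ (a b : K) : f (yQ a b) = yQ (f a) (f b) := by
  simp [yQ, Yf, EQ, FQ, map_ofNat]

end map

variable {A B : K}

section add

variable [DecidableEq K]

theorem add_EC {x₁ y₁ x₂ y₂ l x₃ y₃ : K} (h₁ : (EC A B).toAffine.Nonsingular x₁ y₁)
    (h₂ : (EC A B).toAffine.Nonsingular x₂ y₂) (h₃ : (EC A B).toAffine.Nonsingular x₃ y₃)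
    (hx : x₁ ≠ x₂) (hl : l * (x₁ - x₂) = y₁ - y₂) (hx₃ : l ^ 2 - x₁ - x₂ = x₃)
    (hy₃ : -(l * (x₃ - x₁) + y₁) = y₃) :
    (Affine.Point.some x₁ y₁ h₁ + Affine.Point.some x₂ y₂ h₂ : (EC A B).toAffine.Point) =
      Affine.Point.some x₃ y₃ h₃ := by
  have hs : (EC A B).toAffine.slope x₁ x₂ y₁ y₂ = l := by
    rw [Affine.slope_of_X_ne hx, ← hl, mul_div_assoc, div_self (sub_ne_zero.2 hx), mul_one]
  have hX : (EC A B).toAffine.addX x₁ x₂ l = x₃ := by
    rw [← hx₃]; simp [Affine.addX, EC]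
  rw [Affine.Point.add_of_X_ne hx]
  simp only [Affine.Point.some.injEq, hs]
  refine ⟨hX, ?_⟩
  rw [Affine.addY, Affine.negAddY, hX, Affine.negY, ← hy₃]
  simp [EC]

theorem dbl_EC [CharZero K] {x y l x₃ y₃ : K} (h : (EC A B).toAffine.Nonsingular x y)
    (h₃ : (EC A B).toAffine.Nonsingular x₃ y₃) (hy : y ≠ 0) (hl : 2 * y * l = 3 * x ^ 2 + A)
    (hx₃ : l ^ 2 - 2 * x = x₃) (hy₃ : -(l * (x₃ - x) + y) = y₃) :
    (Affine.Point.some x y h + Affine.Point.some x y h : (EC A B).toAffine.Point) =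
      Affine.Point.some x₃ y₃ h₃ := by
  have hne : y ≠ (EC A B).toAffine.negY x y := by
    rw [Affine.negY]
    simp only [EC, zero_mul, sub_zero]
    intro h0
    have : (2 : K) * y = 0 := by linear_combination h0
    exact hy ((mul_eq_zero.1 this).resolve_left two_ne_zero)
  have hs : (EC A B).toAffine.slope x x y y = l := by
    rw [Affine.slope_of_Y_ne rfl hne, Affine.negY]
    simp only [EC, zero_mul, sub_zero, mul_zero, add_zero]
    rw [← hl]
    field_simp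
    ring
  have hX : (EC A B).toAffine.addX x x l = x₃ := by
    rw [← hx₃]; simp [Affine.addX, EC]; ring
  rw [Affine.Point.add_self_of_Y_ne hne]
  simp only [Affine.Point.some.injEq, hs]
  refine ⟨hX, ?_⟩
  rw [Affine.addY, Affine.negAddY, hX, Affine.negY, ← hy₃]
  simp [EC]

end add

theorem ns_EC (hΔ : (EC A B).Δ ≠ 0) {E F : K} (hA : Af E F = A) (hB : Bf E F = B) :
    (EC A B).toAffine.Nonsingular (Xf E F) (Yf E F) := by
  refine (Affine.equation_iff_nonsingular_of_Δ_ne_zero hΔ).1 ?_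
  rw [Affine.equation_iff]
  simp only [EC, zero_mul, add_zero]
  rw [← hA, ← hB]
  linear_combination on_curve E F

/-- the point attached to `(E, F)` -/
def pt (hΔ : (EC A B).Δ ≠ 0) {E F : K} (hA : Af E F = A) (hB : Bf E F = B) :
    (EC A B).toAffine.Point :=
  .some (Xf E F) (Yf E F) (ns_EC hΔ hA hB)

theorem pt_ne_zero (hΔ : (EC A B).Δ ≠ 0) {E F : K} (hA : Af E F = A) (hB : Bf E F = B) :
    pt hΔ hA hB ≠ 0 := by
  rw [pt]
  exact Affine.Point.some_ne_zero _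

theorem pt_congr (hΔ : (EC A B).Δ ≠ 0) {E F E' F' : K} (hA : Af E F = A) (hB : Bf E F = B)
    (hA' : Af E' F' = A) (hB' : Bf E' F' = B) (h1 : E = E') (h2 : F = F') :
    pt hΔ hA hB = pt hΔ hA' hB' := by
  subst h1 h2; rfl

variable [CharZero K]

theorem Yf_rot {E F : K} (hY : Yf E F ≠ 0) : Yf F (-E) ≠ 0 := by
  simp only [Yf] at hY ⊢
  intro h
  apply hY
  rw [div_eq_zero_iff] at h ⊢
  left
  have h2 := h.resolve_right two_ne_zero
  rcases mul_eq_zero.1 h2 with h3 | h3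
  · have : (3 * E + F) = 0 := by linear_combination h3
    rw [this]; ring
  · have h4 : (E - 3 * F) = 0 := by
      have := pow_eq_zero_iff (two_ne_zero) |>.1 h3
      linear_combination -this
    rw [h4]; ring

theorem pt_neg (hΔ : (EC A B).Δ ≠ 0) {E F : K} (hA : Af E F = A) (hB : Bf E F = B)
    (hA' : Af (-E) (-F) = A) (hB' : Bf (-E) (-F) = B) :
    pt hΔ hA' hB' = -pt hΔ hA hB := by
  rw [pt, pt, Affine.Point.neg_some]
  simp only [Affine.Point.some.injEq]
  refine ⟨Xf_neg E F, ?_⟩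
  rw [Affine.negY, Yf_neg]
  simp [EC]

variable [DecidableEq K]

theorem pt_dbl (hΔ : (EC A B).Δ ≠ 0) {E F : K} (hY : Yf E F ≠ 0) (hA : Af E F = A)
    (hB : Bf E F = B) (hA' : Af F (-E) = A) (hB' : Bf F (-E) = B) :
    pt hΔ hA' hB' = pt hΔ hA hB + pt hΔ hA hB := by
  refine (dbl_EC (l := 2 * E - F) _ _ hY ?_ (dbl_x E F) (dbl_y E F)).symm
  rw [tang, hA]

theorem pt_five (hΔ : (EC A B).Δ ≠ 0) {E F : K} (hY : Yf E F ≠ 0) (hA : Af E F = A)
    (hB : Bf E F = B) : 5 • pt hΔ hA hB = 0 := by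
  have hA1 : Af F (-E) = A := by rw [Af_rot, hA]
  have hB1 : Bf F (-E) = B := by rw [Bf_rot, hB]
  have hA2 : Af (-E) (-F) = A := by rw [Af_rot, hA1]
  have hB2 : Bf (-E) (-F) = B := by rw [Bf_rot, hB1]
  have h1 := pt_dbl hΔ hY hA hB hA1 hB1
  have h2 := pt_dbl hΔ (Yf_rot hY) hA1 hB1 hA2 hB2
  rw [pt_neg hΔ hA hB, h1] at h2
  have h3 : (5 : ℕ) • pt hΔ hA hB = (pt hΔ hA hB + pt hΔ hA hB + (pt hΔ hA hB + pt hΔ hA hB)) +
    pt hΔ hA hB := by
    rw [show (5 : ℕ) = 1 + 1 + (1 + 1) + 1 from rfl, add_nsmul, add_nsmul, add_nsmul, one_nsmul]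
  rw [h3, ← h2, neg_add_cancel]

end Fermat.Agent.S52A
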