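import Fermat.Agent.S52A.Sid
import Fermat.Agent.S52A.Pts0

/-!
# The points `P`, `Q` of order 5
-/

set_option autoImplicit false
set_option linter.unusedSectionVars false

noncomputable section

namespace Fermat.Agent.S52A

open Fermat.Agent.S52L WeierstrassCurve

variable {K : Type*} [Field K] [CharZero K] {z : K} {A B a b a' b' : K}

theorem EC_Δ (h : Par A B a b) : (EC A B).Δ ≠ 0 := by
  have hs := syzygy a b
  have h1 : (EC A B).Δ = 16 * 78732 * 1728 * DD a b ^ 5 := by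
    rw [EC, h.hA, h.hB]
    simp only [WeierstrassCurve.Δ, WeierstrassCurve.b₂, WeierstrassCurve.b₄, WeierstrassCurve.b₆,
      WeierstrassCurve.b₈]
    linear_combination 16 * 78732 * hs
  rw [h1]
  exact mul_ne_zero (by norm_num) (pow_ne_zero 5 h.hD)

theorem nonsing_P (hz : z ^ 4 + z ^ 3 + z ^ 2 + z + 1 = 0) (h : Par A B a b) :
    (EC A B).toAffine.Nonsingular (xP z a b) (yP z a b) :=
  ns_EC (EC_Δ h) ((Af_P hz a b).trans h.hA.symm) ((Bf_P hz a b).trans h.hB.symm)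

theorem nonsing_Q (h : Par A B a b) :
    (EC A B).toAffine.Nonsingular (xQ a b) (yQ a b) :=
  ns_EC (EC_Δ h) ((Af_Q a b).trans h.hA.symm) ((Bf_Q a b).trans h.hB.symm)

/-- the point `P` -/
def PP (hz : z ^ 4 + z ^ 3 + z ^ 2 + z + 1 = 0) (h : Par A B a b) : (EC A B).toAffine.Point :=
  .some _ _ (nonsing_P hz h)

/-- the point `Q` -/
def QQ (h : Par A B a b) : (EC A B).toAffine.Point :=
  .some _ _ (nonsing_Q h)

theorem PP_eq_pt (hz : z ^ 4 + z ^ 3 + z ^ 2 + z + 1 = 0) (h : Par A B a b) :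
    PP hz h = pt (EC_Δ h) ((Af_P hz a b).trans h.hA.symm) ((Bf_P hz a b).trans h.hB.symm) := rfl

theorem QQ_eq_pt (h : Par A B a b) :
    QQ h = pt (EC_Δ h) ((Af_Q a b).trans h.hA.symm) ((Bf_Q a b).trans h.hB.symm) := rfl

theorem PP_ne_zero (hz : z ^ 4 + z ^ 3 + z ^ 2 + z + 1 = 0) (h : Par A B a b) : PP hz h ≠ 0 :=
  Affine.Point.some_ne_zero _

theorem QQ_ne_zero (h : Par A B a b) : QQ h ≠ 0 :=
  Affine.Point.some_ne_zero _

theorem prim_sq (hz : z ^ 4 + z ^ 3 + z ^ 2 + z + 1 = 0) :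
    (z ^ 2) ^ 4 + (z ^ 2) ^ 3 + (z ^ 2) ^ 2 + z ^ 2 + 1 = 0 := by
  linear_combination (z ^ 4 - z ^ 3 + z ^ 2 - z + 1) * hz

theorem prim_pow (hz : z ^ 4 + z ^ 3 + z ^ 2 + z + 1 = 0) {k : ℕ} (hk : ¬ 5 ∣ k) :
    (z ^ k) ^ 4 + (z ^ k) ^ 3 + (z ^ k) ^ 2 + z ^ k + 1 = 0 := by
  have h5 := pow5 hz
  have h1 : z ^ k = z ^ (k % 5) := by
    conv_lhs => rw [← Nat.div_add_mod k 5, pow_add, pow_mul, h5, one_pow, one_mul]
  rw [h1]
  have h2 : k % 5 < 5 := Nat.mod_lt _ (by norm_num)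
  have h3 : k % 5 ≠ 0 := fun h => hk (Nat.dvd_of_mod_eq_zero h)
  generalize k % 5 = m at *
  interval_cases m
  · exact absurd rfl h3
  · simpa using hz
  · exact prim_sq hz
  · linear_combination (z ^ 8 - z ^ 7 + z ^ 5 - z ^ 4 + z ^ 3 - z + 1) * hz
  · linear_combination (z ^ 12 - z ^ 11 + z ^ 8 - z ^ 6 + z ^ 4 - z + 1) * hz

theorem PP_congr (hz : z ^ 4 + z ^ 3 + z ^ 2 + z + 1 = 0) (h : Par A B a b) {z' : K}
    (e : z' = z) (hz' : z' ^ 4 + z' ^ 3 + z' ^ 2 + z' + 1 = 0) : PP hz' h = PP hz h := by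
  subst e; rfl

theorem Par.T (hz : z ^ 4 + z ^ 3 + z ^ 2 + z + 1 = 0) (h : Par A B a b) :
    Par A B (z ^ 3 * a) (z ^ 2 * b) := by
  refine ⟨?_, ?_, ?_⟩
  · rw [DD_T hz]; exact h.hD
  · rw [C4_T hz]; exact h.hA
  · rw [C6_T hz]; exact h.hB

theorem Par.S (hz : z ^ 4 + z ^ 3 + z ^ 2 + z + 1 = 0) (h : Par A B a b) :
    Par A B (Sa z a b) (Sb z a b) := by
  refine ⟨?_, ?_, ?_⟩
  · rw [DD_S hz]; exact h.hD
  · rw [C4_S hz]; exact h.hA
  · rw [C6_S hz]; exact h.hB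

theorem PP_T (hz : z ^ 4 + z ^ 3 + z ^ 2 + z + 1 = 0) (h : Par A B a b)
    (h' : Par A B (z ^ 3 * a) (z ^ 2 * b)) : PP hz h' = PP hz h := by
  rw [PP_eq_pt, PP_eq_pt]
  exact pt_congr _ _ _ _ _ (EP_T hz a b).1 (EP_T hz a b).2

theorem PP_S (hz : z ^ 4 + z ^ 3 + z ^ 2 + z + 1 = 0) (h : Par A B a b)
    (h' : Par A B (Sa z a b) (Sb z a b)) : PP hz h' = QQ h := by
  rw [PP_eq_pt, QQ_eq_pt]
  exact pt_congr _ _ _ _ _ (EP_S hz a b) (FP_S hz a b)

theorem QQ_S (hz : z ^ 4 + z ^ 3 + z ^ 2 + z + 1 = 0) (h : Par A B a b)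
    (h' : Par A B (Sa z a b) (Sb z a b)) : QQ h' = -PP hz h := by
  have hA' : Af (-EP z a b) (-FP z a b) = A := by
    rw [← Af_rot, ← Af_rot, neg_neg, neg_neg]
    exact (Af_P hz a b).trans h.hA.symm
  have hB' : Bf (-EP z a b) (-FP z a b) = B := by
    rw [← Bf_rot, ← Bf_rot, neg_neg, neg_neg]
    exact (Bf_P hz a b).trans h.hB.symm
  rw [PP_eq_pt, ← pt_neg _ _ _ hA' hB', QQ_eq_pt]
  exact pt_congr _ _ _ _ _ (EQ_S hz a b) (FQ_S hz a b)

variable [DecidableEq K]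

theorem QQ_T (hz : z ^ 4 + z ^ 3 + z ^ 2 + z + 1 = 0) (h : Par A B a b)
    (h' : Par A B (z ^ 3 * a) (z ^ 2 * b)) : QQ h' = PP hz h + QQ h := by
  refine (add_EC (l := Nf z a b) _ _ _ (Xf_ne hz h.hD) ?_ ?_ (chord_z hz a b)).symm
  · have := chord_y hz a b
    have e : yQ a b = Yf (EQ a b) (FQ a b) := rfl
    rw [e]
    linear_combination this
  · have := chord_x hz a b
    linear_combination -this

theorem five_PP (hz : z ^ 4 + z ^ 3 + z ^ 2 + z + 1 = 0) (h : Par A B a b) : 5 • PP hz h = 0 :=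
  pt_five (EC_Δ h) (Yf_P_ne hz h.hD) ((Af_P hz a b).trans h.hA.symm)
    ((Bf_P hz a b).trans h.hB.symm)

theorem five_QQ (h : Par A B a b) : 5 • QQ h = 0 :=
  pt_five (EC_Δ h) (Yf_Q_ne h.hD) ((Af_Q a b).trans h.hA.symm) ((Bf_Q a b).trans h.hB.symm)

theorem nsmul_mod5 {G : Type*} [AddCommGroup G] {P : G} (h : 5 • P = 0) (k : ℕ) :
    k • P = (k % 5) • P := by
  conv_lhs => rw [← Nat.div_add_mod k 5, add_nsmul, mul_comm, mul_nsmul', h, nsmul_zero, zero_add]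

theorem PP_sq (hz : z ^ 4 + z ^ 3 + z ^ 2 + z + 1 = 0) (h : Par A B a b)
    (hz' : (z ^ 2) ^ 4 + (z ^ 2) ^ 3 + (z ^ 2) ^ 2 + z ^ 2 + 1 = 0) :
    PP hz' h = 2 • PP hz h := by
  have hA' : Af (FP z a b) (-EP z a b) = A := by
    rw [Af_rot]
    exact (Af_P hz a b).trans h.hA.symm
  have hB' : Bf (FP z a b) (-EP z a b) = B := by
    rw [Bf_rot]
    exact (Bf_P hz a b).trans h.hB.symm
  rw [two_nsmul, PP_eq_pt hz h, ← pt_dbl _ (Yf_P_ne hz h.hD) _ _ hA' hB', PP_eq_pt]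
  have hs := sz_sq hz
  refine pt_congr _ _ _ _ _ ?_ ?_
  · rw [EP, FP, hs.1, hs.2]; ring
  · rw [EP, FP, hs.1, hs.2]; ring

/-- dependence of `P` on the root of unity -/
theorem PP_pow (hz : z ^ 4 + z ^ 3 + z ^ 2 + z + 1 = 0) (h : Par A B a b) {k : ℕ}
    (hk : (z ^ k) ^ 4 + (z ^ k) ^ 3 + (z ^ k) ^ 2 + z ^ k + 1 = 0) :
    PP hk h = k • PP hz h := by
  have h5 := pow5 hz
  have hz2 := prim_sq hz
  have hz4 := prim_sq hz2
  have hz8 := prim_sq hz4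
  have e2 : PP hz2 h = 2 • PP hz h := PP_sq hz h hz2
  have e4 : PP hz4 h = 4 • PP hz h := by
    rw [PP_sq hz2 h hz4, e2, ← mul_nsmul]
  have e8 : PP hz8 h = 3 • PP hz h := by
    rw [PP_sq hz4 h hz8, e4, ← mul_nsmul, nsmul_mod5 (five_PP hz h)]
  have h1 : z ^ k = z ^ (k % 5) := by
    conv_lhs => rw [← Nat.div_add_mod k 5, pow_add, pow_mul, h5, one_pow, one_mul]
  have hk' : (z ^ (k % 5)) ^ 4 + (z ^ (k % 5)) ^ 3 + (z ^ (k % 5)) ^ 2 + z ^ (k % 5) + 1 = 0 := by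
    rw [← h1]; exact hk
  rw [nsmul_mod5 (five_PP hz h), PP_congr hk' h h1 hk]
  have h2 : k % 5 < 5 := Nat.mod_lt _ (by norm_num)
  generalize k % 5 = m at *
  clear h1 hk
  interval_cases m
  · norm_num at hk'
  · rw [one_nsmul]
    exact PP_congr _ _ (pow_one z) _
  · exact e2
  · rw [← e8]
    refine PP_congr _ _ ?_ _
    linear_combination (-(z ^ 3)) * h5
  · rw [← e4]
    exact PP_congr _ _ (by ring) _

theorem QQ_ne_nsmul (hz : z ^ 4 + z ^ 3 + z ^ 2 + z + 1 = 0) (h : Par A B a b) (m : ℕ) :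
    QQ h ≠ m • PP hz h := by
  by_cases hm : 5 ∣ m
  · obtain ⟨n, rfl⟩ := hm
    rw [mul_comm, mul_nsmul', five_PP, nsmul_zero]
    exact QQ_ne_zero h
  · have hk := prim_pow hz hm
    rw [← PP_pow hz h hk]
    intro he
    have h1 := Xf_ne hk h.hD
    rw [PP, QQ, Affine.Point.some.injEq] at he
    exact h1 he.1.symm

theorem indep (hz : z ^ 4 + z ^ 3 + z ^ 2 + z + 1 = 0) (h : Par A B a b) {i j : ℤ}
    (hij : i • PP hz h + j • QQ h = 0) : 5 ∣ i ∧ 5 ∣ j := by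
  have h5P : (5 : ℤ) • PP hz h = 0 := by
    have := five_PP hz h
    exact_mod_cast this
  have h5Q : (5 : ℤ) • QQ h = 0 := by
    have := five_QQ h
    exact_mod_cast this
  have hp : Prime (5 : ℤ) := by norm_num
  have hj : (5 : ℤ) ∣ j := by
    by_contra hj
    obtain ⟨u, v, huv⟩ : IsCoprime (5 : ℤ) j := (Prime.coprime_iff_not_dvd hp).2 hj
    have h1 : QQ h = (-(v * i)) • PP hz h := by
      have h2 : (v * i) • PP hz h + (v * j) • QQ h = 0 := by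
        rw [mul_smul, mul_smul, ← smul_add, hij, smul_zero]
      have h3 : QQ h = (u * 5 + v * j) • QQ h := by rw [huv, one_smul]
      rw [add_smul, mul_smul, h5Q, smul_zero, zero_add] at h3
      rw [h3, neg_smul]
      exact eq_neg_of_add_eq_zero_right h2
    have h4 : ((-(v * i)) % 5).toNat • PP hz h = (-(v * i)) • PP hz h := by
      have h5 : (((-(v * i)) % 5).toNat : ℤ) = (-(v * i)) % 5 :=
        Int.toNat_of_nonneg (Int.emod_nonneg _ (by norm_num))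
      rw [← natCast_zsmul, h5]
      have h6 : (-(v * i)) = (-(v * i)) % 5 + (-(v * i)) / 5 * 5 := by
        have := Int.emod_add_mul_ediv (-(v * i)) 5
        linarith
      conv_rhs => rw [h6, add_smul, mul_smul, h5P, smul_zero, add_zero]
    exact QQ_ne_nsmul hz h _ (h1.trans h4.symm)
  refine ⟨?_, hj⟩
  by_contra hi
  obtain ⟨u, v, huv⟩ : IsCoprime (5 : ℤ) i := (Prime.coprime_iff_not_dvd hp).2 hi
  obtain ⟨n, rfl⟩ := hj
  rw [mul_comm, mul_smul, h5Q, smul_zero, add_zero] at hij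
  have h3 : PP hz h = (u * 5 + v * i) • PP hz h := by rw [huv, one_smul]
  rw [add_smul, mul_smul, mul_smul, h5P, hij, smul_zero, smul_zero, zero_add] at h3
  exact PP_ne_zero hz h h3

end Fermat.Agent.S52A
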