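import Fermat.Agent.S52A.Tors

/-!
# The points of order 5 and the action of the binary icosahedral group
-/

set_option autoImplicit false

namespace Fermat.Agent.S52A

open Fermat.Agent.S52L WeierstrassCurve WeierstrassCurve.Affine

variable {K : Type*} [Field K]

/-! ### identities for the involution `S` -/

/-- entry of `S` -/
def al (z : K) : K := (1 + 2 * z + 3 * z ^ 2 - z ^ 3) / 5

/-- entry of `S` -/
def be (z : K) : K := (2 + 4 * z + z ^ 2 + 3 * z ^ 3) / 5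

/-- first coordinate of `S w` -/
def Sa (z a b : K) : K := al z * a + be z * b

/-- second coordinate of `S w` -/
def Sb (z a b : K) : K := be z * a - al z * b

section S

variable [CharZero K] {z : K} (hz : z ^ 4 + z ^ 3 + z ^ 2 + z + 1 = 0)
include hz

theorem al_be : al z * al z + be z * be z = -1 := by
  simp only [al, be]
  linear_combination ((2/5)*z^2 + (-2/5)*z + (6/5)) * hz

theorem EP_S (a b : K) : EP z (Sa z a b) (Sb z a b) = EQ a b := by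
  simp only [EP, sz, sz2, Sa, Sb, al, be, EQ]
  linear_combination ((-582/3125)*a^5*z^14 + (-114/3125)*a^5*z^13 + (-3582/3125)*a^5*z^12 +
    (-1476/3125)*a^5*z^11 + (-8826/3125)*a^5*z^10 + (-5826/3125)*a^5*z^9 + (-8547/3125)*a^5*z^8 +
    (-10071/3125)*a^5*z^7 + (-5118/3125)*a^5*z^6 + (-13728/3125)*a^5*z^5 + (-4917/3125)*a^5*z^4 +
    (-2664/3125)*a^5*z^3 + (-1047/3125)*a^5*z^2 + (5394/3125)*a^5*z + (-5646/3125)*a^5 +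
    (-198/625)*a^4*b*z^14 + (654/625)*a^4*b*z^13 + (-798/625)*a^4*b*z^12 + (3036/625)*a^4*b*z^11 +
    (486/625)*a^4*b*z^10 + (5886/625)*a^4*b*z^9 + (4917/625)*a^4*b*z^8 + (2481/625)*a^4*b*z^7 +
    (4098/625)*a^4*b*z^6 + (-3792/625)*a^4*b*z^5 + (387/625)*a^4*b*z^4 + (504/625)*a^4*b*z^3 +
    (267/625)*a^4*b*z^2 + (3816/625)*a^4*b*z + (-3744/625)*a^4*b + (-108/625)*a^3*b^2*z^14 +
    (684/625)*a^3*b^2*z^13 + (-1308/625)*a^3*b^2*z^12 + (2256/625)*a^3*b^2*z^11 +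
    (-3444/625)*a^3*b^2*z^10 + (-1644/625)*a^3*b^2*z^9 + (-7818/625)*a^3*b^2*z^8 +
    (-14874/625)*a^3*b^2*z^7 + (-14292/625)*a^3*b^2*z^6 + (-19332/625)*a^3*b^2*z^5 +
    (-9798/625)*a^3*b^2*z^4 + (-4416/625)*a^3*b^2*z^3 + (-1368/625)*a^3*b^2*z^2 +
    (3486/625)*a^3*b^2*z + (-3774/625)*a^3*b^2 + (-108/625)*a^2*b^3*z^14 + (684/625)*a^2*b^3*z^13 +
    (-1308/625)*a^2*b^3*z^12 + (2256/625)*a^2*b^3*z^11 + (-3444/625)*a^2*b^3*z^10 +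
    (-1644/625)*a^2*b^3*z^9 + (-7818/625)*a^2*b^3*z^8 + (-14874/625)*a^2*b^3*z^7 +
    (-14292/625)*a^2*b^3*z^6 + (-19332/625)*a^2*b^3*z^5 + (-9798/625)*a^2*b^3*z^4 +
    (-4416/625)*a^2*b^3*z^3 + (-1368/625)*a^2*b^3*z^2 + (3486/625)*a^2*b^3*z + (-3774/625)*a^2*b^3 +
    (18/125)*a*b^4*z^14 + (6/125)*a*b^4*z^13 + (-102/125)*a*b^4*z^12 + (-156/125)*a*b^4*z^11 +
    (-786/125)*a*b^4*z^10 + (-1506/125)*a*b^4*z^9 + (-2547/125)*a*b^4*z^8 + (-3471/125)*a*b^4*z^7 +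
    (-3678/125)*a*b^4*z^6 + (-3108/125)*a*b^4*z^5 + (-2037/125)*a*b^4*z^4 + (-984/125)*a*b^4*z^3 +
    (-327/125)*a*b^4*z^2 + (-66/125)*a*b^4*z + (-6/125)*a*b^4 + (-294/3125)*b^5*z^14 +
    (-738/3125)*b^5*z^13 + (-3294/3125)*b^5*z^12 + (-5292/3125)*b^5*z^11 + (-13242/3125)*b^5*z^10 +
    (-19242/3125)*b^5*z^9 + (-26199/3125)*b^5*z^8 + (-29907/3125)*b^5*z^7 + (-27606/3125)*b^5*z^6 +
    (-25476/3125)*b^5*z^5 + (-15489/3125)*b^5*z^4 + (-8088/3125)*b^5*z^3 + (-2949/3125)*b^5*z^2 +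
    (1248/3125)*b^5*z + (-1932/3125)*b^5) * hz

theorem FP_S (a b : K) : FP z (Sa z a b) (Sb z a b) = FQ a b := by
  simp only [FP, sz, sz2, Sa, Sb, al, be, FQ]
  linear_combination ((-294/3125)*a^5*z^14 + (-738/3125)*a^5*z^13 + (-3294/3125)*a^5*z^12 +
    (-5292/3125)*a^5*z^11 + (-13242/3125)*a^5*z^10 + (-19242/3125)*a^5*z^9 + (-26199/3125)*a^5*z^8 +
    (-29907/3125)*a^5*z^7 + (-27606/3125)*a^5*z^6 + (-25476/3125)*a^5*z^5 + (-15489/3125)*a^5*z^4 +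
    (-8088/3125)*a^5*z^3 + (-2949/3125)*a^5*z^2 + (1248/3125)*a^5*z + (-1932/3125)*a^5 +
    (-18/125)*a^4*b*z^14 + (-6/125)*a^4*b*z^13 + (102/125)*a^4*b*z^12 + (156/125)*a^4*b*z^11 +
    (786/125)*a^4*b*z^10 + (1506/125)*a^4*b*z^9 + (2547/125)*a^4*b*z^8 + (3471/125)*a^4*b*z^7 +
    (3678/125)*a^4*b*z^6 + (3108/125)*a^4*b*z^5 + (2037/125)*a^4*b*z^4 + (984/125)*a^4*b*z^3 +
    (327/125)*a^4*b*z^2 + (66/125)*a^4*b*z + (6/125)*a^4*b + (-108/625)*a^3*b^2*z^14 +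
    (684/625)*a^3*b^2*z^13 + (-1308/625)*a^3*b^2*z^12 + (2256/625)*a^3*b^2*z^11 +
    (-3444/625)*a^3*b^2*z^10 + (-1644/625)*a^3*b^2*z^9 + (-7818/625)*a^3*b^2*z^8 +
    (-14874/625)*a^3*b^2*z^7 + (-14292/625)*a^3*b^2*z^6 + (-19332/625)*a^3*b^2*z^5 +
    (-9798/625)*a^3*b^2*z^4 + (-4416/625)*a^3*b^2*z^3 + (-1368/625)*a^3*b^2*z^2 +
    (3486/625)*a^3*b^2*z + (-3774/625)*a^3*b^2 + (108/625)*a^2*b^3*z^14 + (-684/625)*a^2*b^3*z^13 +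
    (1308/625)*a^2*b^3*z^12 + (-2256/625)*a^2*b^3*z^11 + (3444/625)*a^2*b^3*z^10 +
    (1644/625)*a^2*b^3*z^9 + (7818/625)*a^2*b^3*z^8 + (14874/625)*a^2*b^3*z^7 +
    (14292/625)*a^2*b^3*z^6 + (19332/625)*a^2*b^3*z^5 + (9798/625)*a^2*b^3*z^4 +
    (4416/625)*a^2*b^3*z^3 + (1368/625)*a^2*b^3*z^2 + (-3486/625)*a^2*b^3*z + (3774/625)*a^2*b^3 +
    (-198/625)*a*b^4*z^14 + (654/625)*a*b^4*z^13 + (-798/625)*a*b^4*z^12 + (3036/625)*a*b^4*z^11 +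
    (486/625)*a*b^4*z^10 + (5886/625)*a*b^4*z^9 + (4917/625)*a*b^4*z^8 + (2481/625)*a*b^4*z^7 +
    (4098/625)*a*b^4*z^6 + (-3792/625)*a*b^4*z^5 + (387/625)*a*b^4*z^4 + (504/625)*a*b^4*z^3 +
    (267/625)*a*b^4*z^2 + (3816/625)*a*b^4*z + (-3744/625)*a*b^4 + (582/3125)*b^5*z^14 +
    (114/3125)*b^5*z^13 + (3582/3125)*b^5*z^12 + (1476/3125)*b^5*z^11 + (8826/3125)*b^5*z^10 +
    (5826/3125)*b^5*z^9 + (8547/3125)*b^5*z^8 + (10071/3125)*b^5*z^7 + (5118/3125)*b^5*z^6 +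
    (13728/3125)*b^5*z^5 + (4917/3125)*b^5*z^4 + (2664/3125)*b^5*z^3 + (1047/3125)*b^5*z^2 +
    (-5394/3125)*b^5*z + (5646/3125)*b^5) * hz

theorem Sa_S (a b : K) : Sa z (Sa z a b) (Sb z a b) = -a := by
  have h := al_be hz
  simp only [Sa, Sb]
  linear_combination a * h

theorem Sb_S (a b : K) : Sb z (Sa z a b) (Sb z a b) = -b := by
  have h := al_be hz
  simp only [Sa, Sb]
  linear_combination b * h

omit hz in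
theorem EP_neg (a b : K) : EP z (-a) (-b) = -EP z a b := by
  simp only [EP]; ring

omit hz in
theorem FP_neg (a b : K) : FP z (-a) (-b) = -FP z a b := by
  simp only [FP]; ring

theorem EQ_S (a b : K) : EQ (Sa z a b) (Sb z a b) = -EP z a b := by
  rw [← EP_S hz, Sa_S hz, Sb_S hz, EP_neg]

theorem FQ_S (a b : K) : FQ (Sa z a b) (Sb z a b) = -FP z a b := by
  rw [← FP_S hz, Sa_S hz, Sb_S hz, FP_neg]

theorem Sa_mul_Sb (a b : K) : Sa z a b * Sb z a b =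
    (1 + 2 * (z ^ 2 + z ^ 3)) / 5 * (a ^ 2 - a * b - b ^ 2) := by
  simp only [Sa, Sb, al, be]
  linear_combination ((-3/25)*a^2*z^2 + (11/25)*a^2*z + (-3/25)*a^2 + (8/25)*a*b*z^2 +
    (4/25)*a*b*z + (8/25)*a*b + (3/25)*b^2*z^2 + (-11/25)*b^2*z + (3/25)*b^2) * hz

theorem Sq_S (a b : K) : Sa z a b ^ 2 - Sa z a b * Sb z a b - Sb z a b ^ 2 =
    (1 + 2 * (z ^ 2 + z ^ 3)) * (a * b) := by
  simp only [Sa, Sb, al, be]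
  linear_combination ((-1/5)*a^2*z^2 + (-3/5)*a^2*z + (-1/5)*a^2 + (-4/5)*a*b*z^2 + (8/5)*a*b*z +
    (-4/5)*a*b + (1/5)*b^2*z^2 + (3/5)*b^2*z + (1/5)*b^2) * hz

omit hz [CharZero K] in
theorem DD_fac (a b : K) : DD a b = a * b * (a ^ 2 - a * b - b ^ 2) *
    (a ^ 8 + a ^ 7 * b + 2 * a ^ 6 * b ^ 2 + 3 * a ^ 5 * b ^ 3 + 5 * a ^ 4 * b ^ 4 -
      3 * a ^ 3 * b ^ 5 + 2 * a ^ 2 * b ^ 6 - a * b ^ 7 + b ^ 8) := by
  simp only [DD]; ring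

omit hz in
theorem Psi_ut (x y : K) : x ^ 8 + x ^ 7 * y + 2 * x ^ 6 * y ^ 2 + 3 * x ^ 5 * y ^ 3 +
    5 * x ^ 4 * y ^ 4 - 3 * x ^ 3 * y ^ 5 + 2 * x ^ 2 * y ^ 6 - x * y ^ 7 + y ^ 8 =
    (x ^ 2 - y ^ 2) ^ 4 + (x * y) * (x ^ 2 - y ^ 2) ^ 3 + 6 * (x ^ 2 - y ^ 2) ^ 2 * (x * y) ^ 2 +
      6 * (x * y) ^ 3 * (x ^ 2 - y ^ 2) + 11 * (x * y) ^ 4 := by
  ring

theorem Psi_S (a b : K) : Sa z a b ^ 8 + Sa z a b ^ 7 * Sb z a b +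
    2 * Sa z a b ^ 6 * Sb z a b ^ 2 + 3 * Sa z a b ^ 5 * Sb z a b ^ 3 +
    5 * Sa z a b ^ 4 * Sb z a b ^ 4 - 3 * Sa z a b ^ 3 * Sb z a b ^ 5 +
    2 * Sa z a b ^ 2 * Sb z a b ^ 6 - Sa z a b * Sb z a b ^ 7 + Sb z a b ^ 8 =
    a ^ 8 + a ^ 7 * b + 2 * a ^ 6 * b ^ 2 + 3 * a ^ 5 * b ^ 3 + 5 * a ^ 4 * b ^ 4 -
      3 * a ^ 3 * b ^ 5 + 2 * a ^ 2 * b ^ 6 - a * b ^ 7 + b ^ 8 := by
  have hr : (1 + 2 * (z ^ 2 + z ^ 3)) ^ 2 = 5 := by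
    linear_combination (4 * z ^ 2 + 4 * z - 4) * hz
  have h1 := Sa_mul_Sb hz a b
  have h2 := Sq_S hz a b
  rw [Psi_ut, Psi_ut]
  generalize 1 + 2 * (z ^ 2 + z ^ 3) = r at hr h1 h2
  have h3 : Sa z a b ^ 2 - Sb z a b ^ 2 = r * (a * b) + r / 5 * (a ^ 2 - a * b - b ^ 2) := by
    linear_combination h1 + h2
  rw [h1, h3]
  linear_combination (r ^ 2 + 5) / 25 * ((a ^ 2 - b ^ 2) ^ 4 + (a * b) * (a ^ 2 - b ^ 2) ^ 3 +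
    6 * (a ^ 2 - b ^ 2) ^ 2 * (a * b) ^ 2 + 6 * (a * b) ^ 3 * (a ^ 2 - b ^ 2) +
    11 * (a * b) ^ 4) * hr

theorem DD_S (a b : K) : DD (Sa z a b) (Sb z a b) = DD a b := by
  have hr : (1 + 2 * (z ^ 2 + z ^ 3)) ^ 2 = 5 := by
    linear_combination (4 * z ^ 2 + 4 * z - 4) * hz
  rw [DD_fac, Psi_S hz, Sq_S hz, Sa_mul_Sb hz, DD_fac]
  linear_combination (a * b * (a ^ 2 - a * b - b ^ 2) *
    (a ^ 8 + a ^ 7 * b + 2 * a ^ 6 * b ^ 2 + 3 * a ^ 5 * b ^ 3 + 5 * a ^ 4 * b ^ 4 -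
      3 * a ^ 3 * b ^ 5 + 2 * a ^ 2 * b ^ 6 - a * b ^ 7 + b ^ 8)) / 5 * hr

theorem C4_S (a b : K) : C4 (Sa z a b) (Sb z a b) = C4 a b := by
  have h1 := Af_P hz (Sa z a b) (Sb z a b)
  rw [EP_S hz, FP_S hz, Af_Q] at h1
  exact (mul_left_cancel₀ (by norm_num) h1).symm

theorem C6_S (a b : K) : C6 (Sa z a b) (Sb z a b) = C6 a b := by
  have h1 := Bf_P hz (Sa z a b) (Sb z a b)
  rw [EP_S hz, FP_S hz, Bf_Q] at h1
  exact (mul_left_cancel₀ (by norm_num) h1).symm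

end S

/-! ### identities for `T` -/

section T

variable {z : K}

theorem pow5 (hz : z ^ 4 + z ^ 3 + z ^ 2 + z + 1 = 0) : z ^ 5 = 1 := by
  linear_combination (z - 1) * hz

theorem DD_T (hz : z ^ 4 + z ^ 3 + z ^ 2 + z + 1 = 0) (a b : K) :
    DD (z ^ 3 * a) (z ^ 2 * b) = DD a b := by
  have h := pow5 hz
  have h1 : z ^ 3 * z ^ 2 = 1 := by rw [← pow_add]; exact h
  have h2 : (z ^ 3 * a) ^ 5 = a ^ 5 := by
    rw [mul_pow, ← pow_mul, mul_comm 3 5, pow_mul, h, one_pow, one_mul]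
  have h3 : (z ^ 2 * b) ^ 5 = b ^ 5 := by
    rw [mul_pow, ← pow_mul, mul_comm 2 5, pow_mul, h, one_pow, one_mul]
  have e : ∀ x y : K, DD x y = x * y * ((x ^ 5) ^ 2 - 11 * x ^ 5 * y ^ 5 - (y ^ 5) ^ 2) := by
    intro x y; simp only [DD]; ring
  rw [e, e, h2, h3]
  linear_combination (a * b * ((a ^ 5) ^ 2 - 11 * a ^ 5 * b ^ 5 - (b ^ 5) ^ 2)) * h1

theorem C4_T (hz : z ^ 4 + z ^ 3 + z ^ 2 + z + 1 = 0) (a b : K) :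
    C4 (z ^ 3 * a) (z ^ 2 * b) = C4 a b := by
  have h := pow5 hz
  have h2 : (z ^ 3 * a) ^ 5 = a ^ 5 := by
    rw [mul_pow, ← pow_mul, mul_comm 3 5, pow_mul, h, one_pow, one_mul]
  have h3 : (z ^ 2 * b) ^ 5 = b ^ 5 := by
    rw [mul_pow, ← pow_mul, mul_comm 2 5, pow_mul, h, one_pow, one_mul]
  have e : ∀ x y : K, C4 x y = (x ^ 5) ^ 4 + 228 * (x ^ 5) ^ 3 * y ^ 5 +
      494 * (x ^ 5) ^ 2 * (y ^ 5) ^ 2 - 228 * x ^ 5 * (y ^ 5) ^ 3 + (y ^ 5) ^ 4 := by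
    intro x y; simp only [C4]; ring
  rw [e, e, h2, h3]

theorem C6_T (hz : z ^ 4 + z ^ 3 + z ^ 2 + z + 1 = 0) (a b : K) :
    C6 (z ^ 3 * a) (z ^ 2 * b) = C6 a b := by
  have h := pow5 hz
  have h2 : (z ^ 3 * a) ^ 5 = a ^ 5 := by
    rw [mul_pow, ← pow_mul, mul_comm 3 5, pow_mul, h, one_pow, one_mul]
  have h3 : (z ^ 2 * b) ^ 5 = b ^ 5 := by
    rw [mul_pow, ← pow_mul, mul_comm 2 5, pow_mul, h, one_pow, one_mul]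
  have e : ∀ x y : K, C6 x y = -((x ^ 5) ^ 6 + (y ^ 5) ^ 6) +
      522 * ((x ^ 5) ^ 5 * y ^ 5 - x ^ 5 * (y ^ 5) ^ 5) +
      10005 * ((x ^ 5) ^ 4 * (y ^ 5) ^ 2 + (x ^ 5) ^ 2 * (y ^ 5) ^ 4) := by
    intro x y; simp only [C6]; ring
  rw [e, e, h2, h3]

theorem EP_T (hz : z ^ 4 + z ^ 3 + z ^ 2 + z + 1 = 0) (a b : K) :
    EP z (z ^ 3 * a) (z ^ 2 * b) = EP z a b ∧ FP z (z ^ 3 * a) (z ^ 2 * b) = FP z a b := by
  have h := pow5 hz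
  have h2 : (z ^ 3 * a) ^ 5 = a ^ 5 := by
    rw [mul_pow, ← pow_mul, mul_comm 3 5, pow_mul, h, one_pow, one_mul]
  have h3 : (z ^ 2 * b) ^ 5 = b ^ 5 := by
    rw [mul_pow, ← pow_mul, mul_comm 2 5, pow_mul, h, one_pow, one_mul]
  simp only [EP, FP]
  rw [h2, h3]
  exact ⟨rfl, rfl⟩

/-- conjugating the root of unity -/
theorem sz_sq (hz : z ^ 4 + z ^ 3 + z ^ 2 + z + 1 = 0) :
    sz (z ^ 2) = sz2 z ∧ sz2 (z ^ 2) = -sz z := by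
  constructor
  · simp only [sz, sz2]
    linear_combination ((-6/5)*z^2 + (6/5)*z + (-12/5)) * hz
  · simp only [sz, sz2]
    linear_combination ((12/5)*z^2 + (-12/5)*z + (-6/5)) * hz

end T

end Fermat.Agent.S52A
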