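import Fermat.Agent.S52L.Forms

/-!
# The universal elliptic curve with full level 5 structure: explicit points of order 5
-/

set_option autoImplicit false

namespace Fermat.Agent.S52A

open Fermat.Agent.S52L

section field

variable {K : Type*} [Field K]

/-- abscissa -/
def Xf (E F : K) : K := (7 * E ^ 2 - 12 * E * F - 2 * F ^ 2) / 3

/-- ordinate -/
def Yf (E F : K) : K := (E - 3 * F) * (3 * E + F) ^ 2 / 2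

/-- coefficient -/
def Af (E F : K) : K := 2 * (2 * E - F) * Yf E F - 3 * Xf E F ^ 2

/-- coefficient -/
def Bf (E F : K) : K := Yf E F ^ 2 - Xf E F ^ 3 - Af E F * Xf E F

theorem on_curve (E F : K) : Yf E F ^ 2 = Xf E F ^ 3 + Af E F * Xf E F + Bf E F := by
  rw [Bf]; ring

theorem Af_rot [CharZero K] (E F : K) : Af F (-E) = Af E F := by
  simp only [Af, Xf, Yf]; ring

theorem Bf_rot [CharZero K] (E F : K) : Bf F (-E) = Bf E F := by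
  simp only [Bf, Af, Xf, Yf]; ring

/-- the tangent at `P` -/
theorem tang (E F : K) : 2 * Yf E F * (2 * E - F) = 3 * Xf E F ^ 2 + Af E F := by
  rw [Af]; ring

theorem dbl_x [CharZero K] (E F : K) : (2 * E - F) ^ 2 - 2 * Xf E F = Xf F (-E) := by
  simp only [Xf]; ring

theorem dbl_y [CharZero K] (E F : K) :
    -((2 * E - F) * (Xf F (-E) - Xf E F) + Yf E F) = Yf F (-E) := by
  simp only [Xf, Yf]; ring

theorem Xf_neg (E F : K) : Xf (-E) (-F) = Xf E F := by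
  simp only [Xf]; ring

theorem Yf_neg (E F : K) : Yf (-E) (-F) = -Yf E F := by
  simp only [Yf]; ring

/-! ### the point `Q` -/

/-- the Eisenstein value at `Q` -/
def EQ (a b : K) : K := (9 * a ^ 5 + 30 * a ^ 4 * b + 30 * a ^ 3 * b ^ 2 + 30 * a ^ 2 * b ^ 3 +
  3 * b ^ 5) / 5

/-- the Eisenstein value at `2Q` -/
def FQ (a b : K) : K := (3 * a ^ 5 + 30 * a ^ 3 * b ^ 2 - 30 * a ^ 2 * b ^ 3 + 30 * a * b ^ 4 -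
  9 * b ^ 5) / 5

theorem Af_Q [CharZero K] (a b : K) : Af (EQ a b) (FQ a b) = -27 * C4 a b := by
  simp only [Af, Xf, Yf, EQ, FQ, C4]; ring

theorem Bf_Q [CharZero K] (a b : K) : Bf (EQ a b) (FQ a b) = -54 * C6 a b := by
  simp only [Bf, Af, Xf, Yf, EQ, FQ, C6]; ring

/-- the ordinate of `Q` does not vanish -/
theorem Yf_Q_ne [CharZero K] {a b : K} (hD : DD a b ≠ 0) : Yf (EQ a b) (FQ a b) ≠ 0 := by
  have h1 : (EQ a b - 3 * FQ a b) * (3 * EQ a b + FQ a b) * (a ^ 2 - a * b - b ^ 2) =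
      36 * DD a b := by
    simp only [EQ, FQ, DD]; ring
  have h2 : (EQ a b - 3 * FQ a b) * (3 * EQ a b + FQ a b) ≠ 0 := by
    intro h
    rw [h, zero_mul] at h1
    exact hD ((mul_eq_zero.1 h1.symm).resolve_left (by norm_num))
  rw [Yf]
  refine div_ne_zero (mul_ne_zero (left_ne_zero_of_mul h2) (pow_ne_zero 2
    (right_ne_zero_of_mul h2))) two_ne_zero

/-! ### the point `P` -/

/-- `3 (z + 1) / (z - 1)` for a fifth root of unity `z` -/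
def sz (z : K) : K := -(3 / 5) * (3 + 6 * z + 4 * z ^ 2 + 2 * z ^ 3)

/-- the conjugate of `sz z` -/
def sz2 (z : K) : K := (3 / 5) * (1 + 2 * z - 2 * z ^ 2 + 4 * z ^ 3)

/-- the Eisenstein value at `P` -/
def EP (z a b : K) : K := sz z * a ^ 5 - sz2 z * b ^ 5

/-- the Eisenstein value at `2P` -/
def FP (z a b : K) : K := sz2 z * a ^ 5 + sz z * b ^ 5

variable {z : K}

theorem Af_P [CharZero K] (hz : z ^ 4 + z ^ 3 + z ^ 2 + z + 1 = 0) (a b : K) :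
    Af (EP z a b) (FP z a b) = -27 * C4 a b := by
  simp only [Af, Xf, Yf, EP, FP, sz, sz2, C4]
  linear_combination ((-38448/125)*a^20*z^8 + (-141696/125)*a^20*z^7 + (-193104/125)*a^20*z^6 +
    (-232632/125)*a^20*z^5 + (-18144/25)*a^20*z^4 + (-52272/125)*a^20*z^3 + (-100224/125)*a^20*z^2 +
    (-54216/125)*a^20*z + (-3888/125)*a^20 + (-180144/125)*a^15*b^5*z^8 +
    (255312/125)*a^15*b^5*z^7 + (360288/125)*a^15*b^5*z^6 + (1553904/125)*a^15*b^5*z^5 +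
    (237168/25)*a^15*b^5*z^4 + (1365984/125)*a^15*b^5*z^3 + (881928/125)*a^15*b^5*z^2 +
    (-454248/125)*a^15*b^5*z + (814536/125)*a^15*b^5 + (-39312/125)*a^10*b^10*z^8 +
    (1120176/125)*a^10*b^10*z^7 + (-461376/125)*a^10*b^10*z^6 + (1395792/125)*a^10*b^10*z^5 +
    (-377136/25)*a^10*b^10*z^4 + (-1846368/125)*a^10*b^10*z^3 + (-748656/125)*a^10*b^10*z^2 +
    (-1834704/125)*a^10*b^10*z + (1643328/125)*a^10*b^10 + (180144/125)*a^5*b^15*z^8 +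
    (-255312/125)*a^5*b^15*z^7 + (-360288/125)*a^5*b^15*z^6 + (-1553904/125)*a^5*b^15*z^5 +
    (-237168/25)*a^5*b^15*z^4 + (-1365984/125)*a^5*b^15*z^3 + (-881928/125)*a^5*b^15*z^2 +
    (454248/125)*a^5*b^15*z + (-814536/125)*a^5*b^15 + (-38448/125)*b^20*z^8 +
    (-141696/125)*b^20*z^7 + (-193104/125)*b^20*z^6 + (-232632/125)*b^20*z^5 +
    (-18144/25)*b^20*z^4 + (-52272/125)*b^20*z^3 + (-100224/125)*b^20*z^2 + (-54216/125)*b^20*z +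
    (-3888/125)*b^20) * hz

theorem Bf_P [CharZero K] (hz : z ^ 4 + z ^ 3 + z ^ 2 + z + 1 = 0) (a b : K) :
    Bf (EP z a b) (FP z a b) = -54 * C6 a b := by
  simp only [Bf, Af, Xf, Yf, EP, FP, sz, sz2, C6]
  linear_combination ((1304208/625)*a^30*z^14 + (8019216/625)*a^30*z^13 + (22904208/625)*a^30*z^12 +
    (53121744/625)*a^30*z^11 + (109692144/625)*a^30*z^10 + (182538144/625)*a^30*z^9 +
    (241509168/625)*a^30*z^8 + (269171424/625)*a^30*z^7 + (259850592/625)*a^30*z^6 +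
    (208305432/625)*a^30*z^5 + (138278448/625)*a^30*z^4 + (72592416/625)*a^30*z^3 +
    (26481168/625)*a^30*z^2 + (5665464/625)*a^30*z + (478224/625)*a^30 +
    (9323424/625)*a^25*b^5*z^14 + (13009248/625)*a^25*b^5*z^13 + (9323424/625)*a^25*b^5*z^12 +
    (25909632/625)*a^25*b^5*z^11 + (-76539168/625)*a^25*b^5*z^10 + (-218451168/625)*a^25*b^5*z^9 +
    (-463515696/625)*a^25*b^5*z^8 + (-716873328/625)*a^25*b^5*z^7 + (-811029024/625)*a^25*b^5*z^6 +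
    (-670905504/625)*a^25*b^5*z^5 + (-450179856/625)*a^25*b^5*z^4 + (-208801152/625)*a^25*b^5*z^3 +
    (-65724696/625)*a^25*b^5*z^2 + (-30437208/625)*a^25*b^5*z + (16452072/625)*a^25*b^5 +
    (3015792/125)*a^20*b^10*z^14 + (-12339216/125)*a^20*b^10*z^13 + (15975792/125)*a^20*b^10*z^12 +
    (-53121744/125)*a^20*b^10*z^11 + (6947856/125)*a^20*b^10*z^10 + (-74538144/125)*a^20*b^10*z^9 +
    (-31989168/125)*a^20*b^10*z^8 + (35388576/125)*a^20*b^10*z^7 + (12309408/125)*a^20*b^10*z^6 +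
    (141614568/125)*a^20*b^10*z^5 + (41001552/125)*a^20*b^10*z^4 + (13807584/125)*a^20*b^10*z^3 +
    (2678832/125)*a^20*b^10*z^2 + (-67225464/125)*a^20*b^10*z + (67561776/125)*a^20*b^10 +
    (3015792/125)*a^10*b^20*z^14 + (-12339216/125)*a^10*b^20*z^13 + (15975792/125)*a^10*b^20*z^12 +
    (-53121744/125)*a^10*b^20*z^11 + (6947856/125)*a^10*b^20*z^10 + (-74538144/125)*a^10*b^20*z^9 +
    (-31989168/125)*a^10*b^20*z^8 + (35388576/125)*a^10*b^20*z^7 + (12309408/125)*a^10*b^20*z^6 +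
    (141614568/125)*a^10*b^20*z^5 + (41001552/125)*a^10*b^20*z^4 + (13807584/125)*a^10*b^20*z^3 +
    (2678832/125)*a^10*b^20*z^2 + (-67225464/125)*a^10*b^20*z + (67561776/125)*a^10*b^20 +
    (-9323424/625)*a^5*b^25*z^14 + (-13009248/625)*a^5*b^25*z^13 + (-9323424/625)*a^5*b^25*z^12 +
    (-25909632/625)*a^5*b^25*z^11 + (76539168/625)*a^5*b^25*z^10 + (218451168/625)*a^5*b^25*z^9 +
    (463515696/625)*a^5*b^25*z^8 + (716873328/625)*a^5*b^25*z^7 + (811029024/625)*a^5*b^25*z^6 +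
    (670905504/625)*a^5*b^25*z^5 + (450179856/625)*a^5*b^25*z^4 + (208801152/625)*a^5*b^25*z^3 +
    (65724696/625)*a^5*b^25*z^2 + (30437208/625)*a^5*b^25*z + (-16452072/625)*a^5*b^25 +
    (1304208/625)*b^30*z^14 + (8019216/625)*b^30*z^13 + (22904208/625)*b^30*z^12 +
    (53121744/625)*b^30*z^11 + (109692144/625)*b^30*z^10 + (182538144/625)*b^30*z^9 +
    (241509168/625)*b^30*z^8 + (269171424/625)*b^30*z^7 + (259850592/625)*b^30*z^6 +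
    (208305432/625)*b^30*z^5 + (138278448/625)*b^30*z^4 + (72592416/625)*b^30*z^3 +
    (26481168/625)*b^30*z^2 + (5665464/625)*b^30*z + (478224/625)*b^30) * hz

/-- the ordinate of `P` does not vanish -/
theorem Yf_P_ne [CharZero K] (hz : z ^ 4 + z ^ 3 + z ^ 2 + z + 1 = 0) {a b : K}
    (hD : DD a b ≠ 0) : Yf (EP z a b) (FP z a b) ≠ 0 := by
  have hr : (1 + 2 * (z ^ 2 + z ^ 3)) ^ 2 = 5 := by
    linear_combination (4 * z ^ 2 + 4 * z - 4) * hz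
  have hr0 : (1 + 2 * (z ^ 2 + z ^ 3) : K) ≠ 0 := by
    intro h
    rw [h] at hr
    norm_num at hr
  have h1 : (EP z a b - 3 * FP z a b) * (3 * EP z a b + FP z a b) * (a * b) =
      36 / 5 * (1 + 2 * (z ^ 2 + z ^ 3)) * DD a b := by
    simp only [EP, FP, DD, sz, sz2]
    linear_combination ((252/25)*a^11*b*z^2 + (1476/25)*a^11*b*z + (252/25)*a^11*b +
      (1728/25)*a^6*b^6*z^2 + (-2736/25)*a^6*b^6*z + (1728/25)*a^6*b^6 + (-252/25)*a*b^11*z^2 +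
      (-1476/25)*a*b^11*z + (-252/25)*a*b^11) * hz
  have h2 : (EP z a b - 3 * FP z a b) * (3 * EP z a b + FP z a b) ≠ 0 := by
    intro h
    rw [h, zero_mul] at h1
    exact hD ((mul_eq_zero.1 h1.symm).resolve_left (mul_ne_zero (by norm_num) hr0))
  rw [Yf]
  refine div_ne_zero (mul_ne_zero (left_ne_zero_of_mul h2) (pow_ne_zero 2
    (right_ne_zero_of_mul h2))) two_ne_zero

/-! ### the chord -/

theorem ER_eq [CharZero K] (hz : z ^ 4 + z ^ 3 + z ^ 2 + z + 1 = 0) (a b : K) :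
    EQ (z ^ 3 * a) (z ^ 2 * b) = (9 * a ^ 5 + 30 * z ^ 4 * a ^ 4 * b + 30 * z ^ 3 * a ^ 3 * b ^ 2 +
      30 * z ^ 2 * a ^ 2 * b ^ 3 + 3 * b ^ 5) / 5 := by
  simp only [EQ]
  linear_combination ((9/5)*a^5*z^11 + (-9/5)*a^5*z^10 + (9/5)*a^5*z^6 + (-9/5)*a^5*z^5 +
    (9/5)*a^5*z + (-9/5)*a^5 + (6)*a^4*b*z^10 + (-6)*a^4*b*z^9 + (6)*a^4*b*z^5 + (-6)*a^4*b*z^4 +
    (6)*a^3*b^2*z^9 + (-6)*a^3*b^2*z^8 + (6)*a^3*b^2*z^4 + (-6)*a^3*b^2*z^3 + (6)*a^2*b^3*z^8 +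
    (-6)*a^2*b^3*z^7 + (6)*a^2*b^3*z^3 + (-6)*a^2*b^3*z^2 + (3/5)*b^5*z^6 + (-3/5)*b^5*z^5 +
    (3/5)*b^5*z + (-3/5)*b^5) * hz

theorem FR_eq [CharZero K] (hz : z ^ 4 + z ^ 3 + z ^ 2 + z + 1 = 0) (a b : K) :
    FQ (z ^ 3 * a) (z ^ 2 * b) = (3 * a ^ 5 + 30 * z ^ 3 * a ^ 3 * b ^ 2 -
      30 * z ^ 2 * a ^ 2 * b ^ 3 + 30 * z * a * b ^ 4 - 9 * b ^ 5) / 5 := by
  simp only [FQ]
  linear_combination ((3/5)*a^5*z^11 + (-3/5)*a^5*z^10 + (3/5)*a^5*z^6 + (-3/5)*a^5*z^5 +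
    (3/5)*a^5*z + (-3/5)*a^5 + (6)*a^3*b^2*z^9 + (-6)*a^3*b^2*z^8 + (6)*a^3*b^2*z^4 +
    (-6)*a^3*b^2*z^3 + (-6)*a^2*b^3*z^8 + (6)*a^2*b^3*z^7 + (-6)*a^2*b^3*z^3 + (6)*a^2*b^3*z^2 +
    (6)*a*b^4*z^7 + (-6)*a*b^4*z^6 + (6)*a*b^4*z^2 + (-6)*a*b^4*z + (-9/5)*b^5*z^6 + (9/5)*b^5*z^5 +
    (-9/5)*b^5*z + (9/5)*b^5) * hz

/-- the slope of the chord -/
def Nf (z a b : K) : K := EP z a b + EQ a b - EQ (z ^ 3 * a) (z ^ 2 * b)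

theorem chord_x [CharZero K] (hz : z ^ 4 + z ^ 3 + z ^ 2 + z + 1 = 0) (a b : K) :
    Xf (EP z a b) (FP z a b) + Xf (EQ a b) (FQ a b) +
      Xf (EQ (z ^ 3 * a) (z ^ 2 * b)) (FQ (z ^ 3 * a) (z ^ 2 * b)) = Nf z a b ^ 2 := by
  rw [Nf, ER_eq hz, FR_eq hz]
  simp only [Xf, EP, FP, sz, sz2, EQ, FQ]
  linear_combination ((48/5)*a^10*z^2 + (96/5)*a^10*z + (72/5)*a^10 + (-72/5)*a^9*b*z^3 +
    (-72/5)*a^9*b*z^2 + (-72/5)*a^9*b*z + (288/5)*a^9*b + (48)*a^8*b^2*z^4 + (-48)*a^8*b^2*z^3 +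
    (-72/5)*a^8*b^2*z^2 + (-72/5)*a^8*b^2*z + (288/5)*a^8*b^2 + (-48)*a^7*b^3*z^3 +
    (48)*a^7*b^3*z^2 + (-72/5)*a^7*b^3*z + (288/5)*a^7*b^3 + (120)*a^6*b^4*z^2 + (-120)*a^6*b^4*z +
    (72)*a^6*b^4 + (144/5)*a^5*b^5*z^2 + (-288/5)*a^5*b^5*z + (144/5)*a^5*b^5 +
    (-144/5)*a^4*b^6*z^3 + (216/5)*a^4*b^6*z^2 + (-144/5)*a^4*b^6*z + (216/5)*a^4*b^6 +
    (-144/5)*a^3*b^7*z^2 + (216/5)*a^3*b^7*z + (-144/5)*a^3*b^7 + (-144/5)*a^2*b^8*z +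
    (216/5)*a^2*b^8 + (-24/5)*b^10*z^2 + (-24)*b^10*z) * hz

theorem chord_y [CharZero K] (hz : z ^ 4 + z ^ 3 + z ^ 2 + z + 1 = 0) (a b : K) :
    Yf (EQ a b) (FQ a b) - Yf (EP z a b) (FP z a b) =
      Nf z a b * (Xf (EQ a b) (FQ a b) - Xf (EP z a b) (FP z a b)) := by
  rw [Nf, ER_eq hz]
  simp only [Xf, Yf, EP, FP, sz, sz2, EQ, FQ]
  linear_combination ((-36/5)*a^15*z^5 + (576/25)*a^15*z^4 + (4464/25)*a^15*z^3 +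
    (4752/25)*a^15*z^2 + (108)*a^15*z + (648/25)*a^15 + (-1656/25)*a^14*b*z^6 +
    (-3528/25)*a^14*b*z^5 + (-3456/25)*a^14*b*z^4 + (-216/5)*a^14*b*z^3 + (1656/25)*a^14*b*z^2 +
    (4608/25)*a^14*b*z + (5616/25)*a^14*b + (-1656/25)*a^13*b^2*z^5 + (-3528/25)*a^13*b^2*z^4 +
    (-3456/25)*a^13*b^2*z^3 + (576/25)*a^13*b^2*z^2 + (3528/25)*a^13*b^2*z + (9936/25)*a^13*b^2 +
    (-1656/25)*a^12*b^3*z^4 + (-3528/25)*a^12*b^3*z^3 + (-72)*a^12*b^3*z^2 + (2448/25)*a^12*b^3*z +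
    (14256/25)*a^12*b^3 + (648)*a^11*b^4 + (396/25)*a^10*b^5*z^5 + (10152/25)*a^10*b^5*z^4 +
    (-2952/25)*a^10*b^5*z^3 + (6084/25)*a^10*b^5*z^2 + (-1656/5)*a^10*b^5*z + (3564/5)*a^10*b^5 +
    (-5184/25)*a^9*b^6*z^6 + (8208/25)*a^9*b^6*z^5 + (-5184/25)*a^9*b^6*z^4 + (2376/5)*a^9*b^6*z^3 +
    (5184/25)*a^9*b^6*z^2 + (-20088/25)*a^9*b^6*z + (24624/25)*a^9*b^6 + (-5184/25)*a^8*b^7*z^5 +
    (8208/25)*a^8*b^7*z^4 + (-5184/25)*a^8*b^7*z^3 + (17064/25)*a^8*b^7*z^2 + (-8208/25)*a^8*b^7*z +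
    (4104/25)*a^8*b^7 + (-5184/25)*a^7*b^8*z^4 + (8208/25)*a^7*b^8*z^3 + (3672/25)*a^7*b^8*z +
    (-216/25)*a^7*b^8 + (216)*a^6*b^9 + (5004/25)*a^5*b^10*z^5 + (-9144/25)*a^5*b^10*z^4 +
    (4464/25)*a^5*b^10*z^3 + (-23868/25)*a^5*b^10*z^2 + (-864/5)*a^5*b^10*z + (324/25)*a^5*b^10 +
    (-144/25)*a^4*b^11*z^6 + (5328/25)*a^4*b^11*z^5 + (-1944/25)*a^4*b^11*z^4 +
    (216/5)*a^4*b^11*z^3 + (144/25)*a^4*b^11*z^2 + (-6408/25)*a^4*b^11*z + (5184/25)*a^4*b^11 +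
    (-144/25)*a^3*b^12*z^5 + (5328/25)*a^3*b^12*z^4 + (-1944/25)*a^3*b^12*z^3 +
    (1224/25)*a^3*b^12*z^2 + (-5328/25)*a^3*b^12*z + (864/25)*a^3*b^12 + (-144/25)*a^2*b^13*z^4 +
    (5328/25)*a^2*b^13*z^3 + (-72)*a^2*b^13*z^2 + (-4248/25)*a^2*b^13*z + (1944/25)*a^2*b^13 +
    (-1116/25)*b^15*z^5 + (-3888/25)*b^15*z^4 + (-2952/25)*b^15*z^3 + (-5256/25)*b^15*z^2 +
    (-684/5)*b^15*z + (-648/25)*b^15) * hz

theorem chord_z [CharZero K] (hz : z ^ 4 + z ^ 3 + z ^ 2 + z + 1 = 0) (a b : K) :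
    -(Nf z a b * (Xf (EQ (z ^ 3 * a) (z ^ 2 * b)) (FQ (z ^ 3 * a) (z ^ 2 * b)) -
      Xf (EP z a b) (FP z a b)) + Yf (EP z a b) (FP z a b)) =
      Yf (EQ (z ^ 3 * a) (z ^ 2 * b)) (FQ (z ^ 3 * a) (z ^ 2 * b)) := by
  rw [Nf, ER_eq hz, FR_eq hz]
  simp only [Xf, Yf, EP, FP, sz, sz2, EQ, FQ]
  linear_combination (-((36/5)*a^15*z^5 + (-576/25)*a^15*z^4 + (-4464/25)*a^15*z^3 +
    (-4752/25)*a^15*z^2 + (-108)*a^15*z + (-648/25)*a^15 + (1656/25)*a^14*b*z^6 +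
    (3528/25)*a^14*b*z^5 + (3456/25)*a^14*b*z^4 + (-2736/25)*a^14*b*z^2 + (-5688/25)*a^14*b*z +
    (-1296/25)*a^14*b + (-504/5)*a^13*b^2*z^7 + (-504/5)*a^13*b^2*z^6 + (-864/25)*a^13*b^2*z^5 +
    (18108/25)*a^13*b^2*z^4 + (-3564/25)*a^13*b^2*z^3 + (-2736/25)*a^13*b^2*z^2 +
    (-5688/25)*a^13*b^2*z + (-1296/25)*a^13*b^2 + (468)*a^12*b^3*z^8 + (-468)*a^12*b^3*z^7 +
    (-144/5)*a^12*b^3*z^6 + (-144/5)*a^12*b^3*z^5 + (13536/25)*a^12*b^3*z^4 +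
    (-10692/25)*a^12*b^3*z^3 + (1116/5)*a^12*b^3*z^2 + (-5688/25)*a^12*b^3*z + (-1296/25)*a^12*b^3 +
    (-1368/5)*a^11*b^4*z^5 + (1152/5)*a^11*b^4*z^4 + (-3168/5)*a^11*b^4*z^3 +
    (4572/5)*a^11*b^4*z^2 + (-1188/5)*a^11*b^4*z + (-288)*a^10*b^5*z^6 + (6804/25)*a^10*b^5*z^5 +
    (288/25)*a^10*b^5*z^4 + (-8208/25)*a^10*b^5*z^3 + (22356/25)*a^10*b^5*z^2 +
    (-2376/5)*a^10*b^5*z + (324/5)*a^10*b^5 + (5184/25)*a^9*b^6*z^6 + (37692/25)*a^9*b^6*z^5 +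
    (-40716/25)*a^9*b^6*z^4 + (-504)*a^9*b^6*z^3 + (26496/25)*a^9*b^6*z^2 + (-7632/25)*a^9*b^6*z +
    (3456/25)*a^9*b^6 + (-1008/5)*a^8*b^7*z^7 + (1512/5)*a^8*b^7*z^6 + (144/25)*a^8*b^7*z^5 +
    (-16848/25)*a^8*b^7*z^4 + (16344/25)*a^8*b^7*z^3 + (13896/25)*a^8*b^7*z^2 +
    (-7632/25)*a^8*b^7*z + (3456/25)*a^8*b^7 + (-288/5)*a^7*b^8*z^6 + (432/5)*a^7*b^8*z^5 +
    (3744/25)*a^7*b^8*z^4 + (-2448/25)*a^7*b^8*z^3 + (-1008/5)*a^7*b^8*z^2 + (-432/25)*a^7*b^8*z +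
    (3456/25)*a^7*b^8 + (-2736/5)*a^6*b^9*z^5 + (4104/5)*a^6*b^9*z^4 + (-2736/5)*a^6*b^9*z^3 +
    (144/5)*a^6*b^9*z^2 + (1224/5)*a^6*b^9*z + (-5004/25)*a^5*b^10*z^5 + (4824/25)*a^5*b^10*z^4 +
    (2016/25)*a^5*b^10*z^3 + (19548/25)*a^5*b^10*z^2 + (216)*a^5*b^10*z + (756/25)*a^5*b^10 +
    (144/25)*a^4*b^11*z^6 + (-5328/25)*a^4*b^11*z^5 + (1944/25)*a^4*b^11*z^4 + (-216)*a^4*b^11*z^3 +
    (6336/25)*a^4*b^11*z^2 + (2088/25)*a^4*b^11*z + (1296/25)*a^4*b^11 + (144/25)*a^3*b^12*z^5 +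
    (-5328/25)*a^3*b^12*z^4 + (1944/25)*a^3*b^12*z^3 + (936/25)*a^3*b^12*z^2 +
    (2088/25)*a^3*b^12*z + (1296/25)*a^3*b^12 + (144/25)*a^2*b^13*z^4 + (-5328/25)*a^2*b^13*z^3 +
    (72)*a^2*b^13*z^2 + (2088/25)*a^2*b^13*z + (1296/25)*a^2*b^13 + (1116/25)*b^15*z^5 +
    (3888/25)*b^15*z^4 + (2952/25)*b^15*z^3 + (5256/25)*b^15*z^2 + (684/5)*b^15*z +
    (648/25)*b^15)) * hz

theorem Xf_sub [CharZero K] (hz : z ^ 4 + z ^ 3 + z ^ 2 + z + 1 = 0) (a b : K) :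
    (Xf (EP z a b) (FP z a b) - Xf (EQ a b) (FQ a b)) * ((-1/36)*a^12*b^2*z^3 +
      (-1/36)*a^12*b^2*z^2 + (-1/12)*a^12*b^2 + (5/36)*a^11*b^3*z^3 + (5/36)*a^11*b^3*z^2 +
      (5/18)*a^11*b^3 + (-5/18)*a^10*b^4*z^3 + (-5/18)*a^10*b^4*z^2 + (-5/12)*a^10*b^4 +
      (5/18)*a^9*b^5*z^3 + (5/18)*a^9*b^5*z^2 + (5/12)*a^9*b^5 + (-7/18)*a^7*b^7*z^3 +
      (-7/18)*a^7*b^7*z^2 + (-7/36)*a^7*b^7 + (5/18)*a^6*b^8*z^3 + (5/18)*a^6*b^8*z^2 +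
      (-5/36)*a^6*b^8 + (5/36)*a^5*b^9*z^3 + (5/36)*a^5*b^9*z^2 + (-5/36)*a^5*b^9 +
      (-5/36)*a^4*b^10*z^3 + (-5/36)*a^4*b^10*z^2 + (5/36)*a^4*b^10 + (1/36)*a^2*b^12*z^3 +
      (1/36)*a^2*b^12*z^2 + (-1/18)*a^2*b^12) = DD a b ^ 2 := by
  simp only [Xf, EP, FP, sz, sz2, EQ, FQ, DD]
  linear_combination ((-23/75)*a^22*b^2*z^5 + (-24/25)*a^22*b^2*z^4 + (-97/75)*a^22*b^2*z^3 +
    (-44/25)*a^22*b^2*z^2 + (-54/25)*a^22*b^2*z + (-43/25)*a^22*b^2 + (23/15)*a^21*b^3*z^5 +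
    (24/5)*a^21*b^3*z^4 + (97/15)*a^21*b^3*z^3 + (109/15)*a^21*b^3*z^2 + (113/15)*a^21*b^3*z +
    (27/5)*a^21*b^3 + (-46/15)*a^20*b^4*z^5 + (-48/5)*a^20*b^4*z^4 + (-194/15)*a^20*b^4*z^3 +
    (-13)*a^20*b^4*z^2 + (-59/5)*a^20*b^4*z + (-38/5)*a^20*b^4 + (46/15)*a^19*b^5*z^5 +
    (48/5)*a^19*b^5*z^4 + (194/15)*a^19*b^5*z^3 + (13)*a^19*b^5*z^2 + (59/5)*a^19*b^5*z +
    (38/5)*a^19*b^5 + (-394/75)*a^17*b^7*z^5 + (-322/25)*a^17*b^7*z^4 + (-1316/75)*a^17*b^7*z^3 +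
    (-1166/75)*a^17*b^7*z^2 + (-46/75)*a^17*b^7*z + (-169/25)*a^17*b^7 + (118/15)*a^16*b^8*z^5 +
    (34/5)*a^16*b^8*z^4 + (152/15)*a^16*b^8*z^3 + (154/15)*a^16*b^8*z^2 + (-412/15)*a^16*b^8*z +
    (77/5)*a^16*b^8 + (-121/15)*a^15*b^9*z^5 + (52/5)*a^15*b^9*z^4 + (181/15)*a^15*b^9*z^3 +
    (2/3)*a^15*b^9*z^2 + (638/15)*a^15*b^9*z + (-203/5)*a^15*b^9 + (121/15)*a^14*b^10*z^5 +
    (-52/5)*a^14*b^10*z^4 + (-181/15)*a^14*b^10*z^3 + (-2/3)*a^14*b^10*z^2 + (-638/15)*a^14*b^10*z +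
    (203/5)*a^14*b^10 + (-329/25)*a^12*b^12*z^5 + (244/25)*a^12*b^12*z^4 + (244/25)*a^12*b^12*z^3 +
    (797/75)*a^12*b^12*z^2 + (3262/75)*a^12*b^12*z + (-1007/25)*a^12*b^12 + (146/15)*a^11*b^13*z^5 +
    (-52/5)*a^11*b^13*z^4 + (-131/15)*a^11*b^13*z^3 + (-242/15)*a^11*b^13*z^2 +
    (-379/15)*a^11*b^13*z + (109/5)*a^11*b^13 + (68/15)*a^10*b^14*z^5 + (34/5)*a^10*b^14*z^4 +
    (52/15)*a^10*b^14*z^3 + (-13)*a^10*b^14*z^2 + (67/5)*a^10*b^14*z + (-6/5)*a^10*b^14 +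
    (-68/15)*a^9*b^15*z^5 + (-34/5)*a^9*b^15*z^4 + (-52/15)*a^9*b^15*z^3 + (13)*a^9*b^15*z^2 +
    (-67/5)*a^9*b^15*z + (6/5)*a^9*b^15 + (44/75)*a^7*b^17*z^5 + (322/25)*a^7*b^17*z^4 +
    (616/75)*a^7*b^17*z^3 + (-419/75)*a^7*b^17*z^2 + (791/75)*a^7*b^17*z + (-126/25)*a^7*b^17 +
    (4/15)*a^6*b^18*z^5 + (-48/5)*a^6*b^18*z^4 + (-94/15)*a^6*b^18*z^3 + (22/15)*a^6*b^18*z^2 +
    (44/15)*a^6*b^18*z + (1/5)*a^6*b^18 + (2/15)*a^5*b^19*z^5 + (-24/5)*a^5*b^19*z^4 +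
    (-47/15)*a^5*b^19*z^3 + (2/3)*a^5*b^19*z^2 + (59/15)*a^5*b^19*z + (-4/5)*a^5*b^19 +
    (-2/15)*a^4*b^20*z^5 + (24/5)*a^4*b^20*z^4 + (47/15)*a^4*b^20*z^3 + (-2/3)*a^4*b^20*z^2 +
    (-59/15)*a^4*b^20*z + (4/5)*a^4*b^20 + (2/75)*a^2*b^22*z^5 + (-24/25)*a^2*b^22*z^4 +
    (-47/75)*a^2*b^22*z^3 + (8/75)*a^2*b^22*z^2 + (133/75)*a^2*b^22*z + (-13/25)*a^2*b^22) * hz

theorem Xf_ne [CharZero K] (hz : z ^ 4 + z ^ 3 + z ^ 2 + z + 1 = 0) {a b : K}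
    (hD : DD a b ≠ 0) : Xf (EP z a b) (FP z a b) ≠ Xf (EQ a b) (FQ a b) := by
  intro h
  have h1 := Xf_sub hz a b
  rw [h, sub_self, zero_mul] at h1
  exact pow_ne_zero 2 hD h1.symm

end field

end Fermat.Agent.S52A
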